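import Fermat.Agent.Local.Integral
import Mathlib.FieldTheory.IsAlgClosed.Basic
import Mathlib.Algebra.Polynomial.Splits

/-!
# Integral and non-integral roots of polynomials over a valuation subring
-/

set_option autoImplicit false

open Polynomial

namespace FermatAgent.LocalP

open FermatAgent.Local

variable {K : Type*} [Field K] [IsAlgClosed K] {A : ValuationSubring K}

omit [IsAlgClosed K] in
lemma val_coeff_prod_X_sub_C_le (s : Multiset K) (hs : ∀ r ∈ s, r ∈ A) (i : ℕ) :
    A.valuation ((s.map fun r => X - C r).prod.coeff i) ≤ 1 := by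
  induction s using Multiset.induction_on generalizing i with
  | empty => simp [coeff_one]; split_ifs <;> simp
  | cons a s ih =>
    have hs' := fun r hr => hs r (Multiset.mem_cons_of_mem hr)
    rw [Multiset.map_cons, Multiset.prod_cons, sub_mul, coeff_sub, coeff_C_mul]
    refine (A.valuation.map_sub _ _).trans (max_le ?_ ?_)
    · rcases i with _ | i
      · simp
      · rw [coeff_X_mul]; exact ih hs' i
    · rw [map_mul]
      exact mul_le_one' (val_le_one_of_mem (hs a (Multiset.mem_cons_self a s))) (ih hs' i)

/-- An integral polynomial with a unit coefficient and a small leading coefficient has a root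
outside `A`. -/
theorem exists_root_not_mem {f : K[X]} (hlead : A.valuation f.leadingCoeff < 1)
    {i : ℕ} (hi : A.valuation (f.coeff i) = 1) : ∃ x, f.eval x = 0 ∧ x ∉ A := by
  have hf : f ≠ 0 := fun h => by simp [h] at hi
  by_contra! hall
  have hs : ∀ r ∈ f.roots, r ∈ A := fun r hr => hall r ((mem_roots hf).1 hr)
  have hsplit := (IsAlgClosed.splits f).eq_prod_roots
  rw [hsplit, coeff_C_mul, map_mul] at hi
  exact (val_mul_lt_one_of_lt_of_le hlead (val_coeff_prod_X_sub_C_le f.roots hs i)).ne hi

omit [IsAlgClosed K] in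
lemma val_coeff_prod_one_sub (s : Multiset K) (hs : ∀ w ∈ s, A.valuation w < 1) :
    A.valuation ((s.map fun w => 1 - C w * X).prod.coeff 0 - 1) < 1 ∧
      ∀ i, A.valuation ((s.map fun w => 1 - C w * X).prod.coeff (i + 1)) < 1 := by
  induction s using Multiset.induction_on with
  | empty => exact ⟨by simp, fun i => by simp [coeff_one]⟩
  | cons a s ih =>
    obtain ⟨h0, h1⟩ := ih fun w hw => hs w (Multiset.mem_cons_of_mem hw)
    have ha := hs a (Multiset.mem_cons_self a s)
    rw [Multiset.map_cons, Multiset.prod_cons, sub_mul, one_mul]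
    constructor
    · rw [coeff_sub, mul_assoc, coeff_C_mul, coeff_X_mul_zero, mul_zero, sub_zero]
      exact h0
    · intro i
      rw [coeff_sub, mul_assoc, coeff_C_mul, coeff_X_mul]
      refine A.valuation.map_sub_lt (h1 i) ?_
      rw [map_mul]
      refine val_mul_lt_one_of_lt_of_le ha ?_
      rcases i with _ | i
      · have := (A.valuation.map_add _ 1).trans (max_le h0.le A.valuation.map_one.le)
        rwa [sub_add_cancel] at this
      · exact (h1 i).le

/-- An integral polynomial with a unit non-constant coefficient has a root in `A`. -/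
theorem exists_root_mem {f : K[X]} (hf : ∀ i, A.valuation (f.coeff i) ≤ 1) {i : ℕ}
    (hi : A.valuation (f.coeff (i + 1)) = 1) : ∃ x, f.eval x = 0 ∧ x ∈ A := by
  have hne : f ≠ 0 := fun h => by simp [h] at hi
  by_contra! hall
  have hs : ∀ r ∈ f.roots, r ∉ A := fun r hr => hall r ((mem_roots hne).1 hr)
  have hfac : ∀ r ∈ f.roots, X - C r = C (-r) * (1 - C r⁻¹ * X) := by
    intro r hr
    have hr0 : r ≠ 0 := fun h => hs r hr (h ▸ zero_mem A)
    rw [mul_sub, mul_one, ← mul_assoc, ← C_mul, neg_mul, mul_inv_cancel₀ hr0, map_neg, map_neg,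
      map_one, neg_one_mul]
    ring
  have hsplit := (IsAlgClosed.splits f).eq_prod_roots
  have hprod : f = C (f.leadingCoeff * (f.roots.map fun r => -r).prod) *
      ((f.roots.map fun r => r⁻¹).map fun w => 1 - C w * X).prod := by
    conv_lhs => rw [hsplit]
    rw [Multiset.map_congr rfl hfac, Multiset.prod_map_mul, C_mul, map_multiset_prod C,
      Multiset.map_map, Multiset.map_map, mul_assoc]
    rfl
  have hw : ∀ w ∈ f.roots.map fun r => r⁻¹, A.valuation w < 1 := by
    intro w hw
    obtain ⟨r, hr, rfl⟩ := Multiset.mem_map.1 hw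
    rw [map_inv₀]
    exact inv_lt_one_of_one_lt₀ (one_lt_val_of_not_mem (hs r hr))
  obtain ⟨h0, h1⟩ := val_coeff_prod_one_sub _ hw
  set u : K := f.leadingCoeff * (f.roots.map fun r => -r).prod
  set g := ((f.roots.map fun r => r⁻¹).map fun w => 1 - C w * X).prod
  have hg0 : A.valuation (g.coeff 0) = 1 := by
    have := A.valuation.map_add_eq_of_lt_left (x := (1 : K)) (y := g.coeff 0 - 1)
      (by rw [map_one]; exact h0)
    rw [add_sub_cancel, map_one] at this
    exact this
  have hu : A.valuation u ≤ 1 := by
    have := hf 0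
    rwa [hprod, coeff_C_mul, map_mul, hg0, mul_one] at this
  rw [hprod, coeff_C_mul, map_mul] at hi
  exact (val_mul_lt_one_of_le_of_lt hu (h1 i)).ne hi

end FermatAgent.LocalP
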