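import Fermat.Agent.LocalP.Conditions.Line

/-!
# Formal and étale `p`-torsion, and inertia, at semistable places over an odd `p`
-/

set_option autoImplicit false

open scoped WeierstrassCurve.Affine

namespace FermatAgent.LocalP

open WeierstrassCurve WeierstrassCurve.Affine
open FermatAgent.Local FermatAgent.GalRep.Tate

noncomputable section

local notation "Qb" => AlgebraicClosure ℚ
local notation "GQ" => AlgebraicClosure ℚ ≃ₐ[ℚ] AlgebraicClosure ℚ

variable {E : WeierstrassCurve ℤ} {p : ℕ} [Fact p.Prime]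

/-- Not every `p`-torsion point reduces to the origin at `A`. -/
def HasEtaleTorsion (E : WeierstrassCurve ℤ) (p : ℕ) (A : ValuationSubring Qb) : Prop :=
  ∃ P : (qbarCurve E).Point, p • P = 0 ∧ ¬ InE1 A (qbarCurve E) P

lemma qbarCurve_Δ_ne_zero (hΔ : (E.map (Int.castRingHom ℚ)).Δ ≠ 0) : (qbarCurve E).Δ ≠ 0 := by
  rw [qbarCurve_Δ]
  rw [WeierstrassCurve.map_Δ] at hΔ
  intro h
  exact hΔ (by simpa using h)

/-- Good or multiplicative reduction at an odd `p`: formal torsion. -/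
theorem hasFormalTorsion_of_semistable (hΔ : (E.map (Int.castRingHom ℚ)).Δ ≠ 0) (hp2 : p ≠ 2)
    (hss : (p : ℤ) ∣ E.Δ → ¬ (p : ℤ) ∣ E.c₄) {A : ValuationSubring Qb} (hA : A.LiesOverPrime p) :
    HasFormalTorsion A (qbarCurve E) p := by
  have hp := (Fact.out : p.Prime)
  have hpA : A.valuation (p : Qb) < 1 := by
    have := (val_intCast_lt_one_iff hp hA (p : ℤ)).2 (dvd_refl _)
    simpa using this
  have hW := qbarCurve_intCoeffs E A
  by_cases hbad : (p : ℤ) ∣ E.Δ
  · refine (hasFormalTorsion_of_mult hW ?_ (qbarCurve_Δ_ne_zero hΔ) ?_ hp hp2 hpA).1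
    · rw [qbarCurve_Δ]; exact (val_intCast_lt_one_iff hp hA _).2 hbad
    · rw [qbarCurve_c₄]; exact val_intCast_eq_one hp hA (hss hbad)
  · refine hasFormalTorsion_of_good hW ?_ hp hp2 (Nat.cast_ne_zero.mpr hp.ne_zero) hpA
    rw [qbarCurve_Δ]; exact val_intCast_eq_one hp hA hbad

/-- Multiplicative reduction at an odd `p`: some `p`-torsion does not reduce to the origin. -/
theorem hasEtaleTorsion_of_mult (hΔ : (E.map (Int.castRingHom ℚ)).Δ ≠ 0) (hp2 : p ≠ 2)
    (hbad : (p : ℤ) ∣ E.Δ) (hc₄ : ¬ (p : ℤ) ∣ E.c₄) {A : ValuationSubring Qb}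
    (hA : A.LiesOverPrime p) : HasEtaleTorsion E p A := by
  have hp := (Fact.out : p.Prime)
  have hpA : A.valuation (p : Qb) < 1 := by
    have := (val_intCast_lt_one_iff hp hA (p : ℤ)).2 (dvd_refl _)
    simpa using this
  refine (hasFormalTorsion_of_mult (qbarCurve_intCoeffs E A) ?_ (qbarCurve_Δ_ne_zero hΔ) ?_
    hp hp2 hpA).2
  · rw [qbarCurve_Δ]; exact (val_intCast_lt_one_iff hp hA _).2 hbad
  · rw [qbarCurve_c₄]; exact val_intCast_eq_one hp hA hc₄

/-- Good reduction: inertia moves every point inside `E₁`. -/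
theorem smul_sub_inE1_of_good (hgood : ¬ (p : ℤ) ∣ E.Δ) {A : ValuationSubring Qb}
    (hA : A.LiesOverPrime p) {σ : GQ} (hσ : σ ∈ A.inertiaSubgroupIn ℚ)
    (P : (qbarCurve E).Point) : InE1 A (qbarCurve E) (σ • P - P) := by
  have hW := qbarCurve_intCoeffs E A
  rw [galois_smul_eq_conjPoint]
  refine IsTate.conj_sub_inE1 (qbarCurve_conj E _) hW hσ ?_
  rcases P with _ | ⟨a, b, h⟩
  · trivial
  · refine (em (a ∈ A)).symm.imp id fun ha => ?_
    exact smoothRed_of_goodReduction hW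
      (by rw [qbarCurve_Δ]; exact val_intCast_eq_one Fact.out hA hgood) h.1 ha

/-- Semistable reduction: inertia moves `p`-power torsion inside `E₁`. -/
theorem smul_sub_inE1_of_semistable (hΔ : (E.map (Int.castRingHom ℚ)).Δ ≠ 0) (hp2 : p ≠ 2)
    (hss : (p : ℤ) ∣ E.Δ → ¬ (p : ℤ) ∣ E.c₄) {A : ValuationSubring Qb} (hA : A.LiesOverPrime p)
    {σ : GQ} (hσ : σ ∈ A.inertiaSubgroupIn ℚ) {n : ℕ} {P : (qbarCurve E).Point}
    (hP : p ^ n • P = 0) : InE1 A (qbarCurve E) (σ • P - P) := by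
  have hp := (Fact.out : p.Prime)
  by_cases hbad : (p : ℤ) ∣ E.Δ
  · have hpA : A.valuation (p : Qb) < 1 := by
      have := (val_intCast_lt_one_iff hp hA (p : ℤ)).2 (dvd_refl _)
      simpa using this
    have hv : A.valuation (qbarCurve E).Δ < 1 := by
      rw [qbarCurve_Δ]; exact (val_intCast_lt_one_iff hp hA _).2 hbad
    have hc : A.valuation (qbarCurve E).c₄ = 1 := by
      rw [qbarCurve_c₄]; exact val_intCast_eq_one hp hA (hss hbad)
    have hW := qbarCurve_intCoeffs E A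
    rw [galois_smul_eq_conjPoint]
    exact inE1_of_inE0_of_pow_nsmul_eq_zero hW hv (qbarCurve_Δ_ne_zero hΔ) hc hp hp2 hpA (n := n)
      (by rw [nsmul_sub, ← map_nsmul, hP, map_zero, sub_zero])
      (mult_conj_sub_inE0 hW hv (qbarCurve_Δ_ne_zero hΔ) hc hσ (qbarCurve_conj E _) P)
  · exact smul_sub_inE1_of_good hbad hA hσ P

lemma inE1_smul {A : ValuationSubring Qb} {σ : GQ} (hσ : σ ∈ A.decompositionSubgroup ℚ)
    {P : (qbarCurve E).Point} (h : InE1 A (qbarCurve E) P) : InE1 A (qbarCurve E) (σ • P) := by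
  rw [galois_smul_eq_conjPoint]
  rcases P with _ | ⟨x, y, hxy⟩
  · exact h
  · exact fun hx => h ((decomposition_mem_iff hσ x).1 hx)

end

end FermatAgent.LocalP
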