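import Fermat.Agent.GalRep.Tate.Curve
import Fermat.Agent.Local.Multiplicative
import Fermat.Prelude.Def_GaloisRep_LocalConditions

/-!
# The Tate module away from `p`, and its determinant
-/

set_option autoImplicit false

open scoped WeierstrassCurve.Affine

namespace FermatAgent.LocalP

open WeierstrassCurve WeierstrassCurve.Affine
open FermatAgent.Local FermatAgent.GalRep.Tate

noncomputable section

variable {E : WeierstrassCurve ℤ} {p : ℕ} [Fact p.Prime]
  (hΔ : (E.map (Int.castRingHom ℚ)).Δ ≠ 0)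

/-- Semistable at `q ≠ p`: inertia acts unipotently on the Tate module. -/
theorem tateRep_isUnipotentOnInertiaAt {q : ℕ} (hq : q.Prime) (hqp : q ≠ p)
    (hss : (q : ℤ) ∣ E.Δ → ¬ (q : ℤ) ∣ E.c₄) : (tateRep p hΔ).IsUnipotentOnInertiaAt q := by
  intro A hA σ hσ
  refine charpoly_eq_of_unipotent hΔ σ fun n P hP => ?_
  exact galois_sub_sub_of_semistable E hq (intΔ_ne_zero E hΔ) hss
    (fun hd => hqp ((Nat.prime_dvd_prime_iff_eq hq Fact.out).1 (hq.dvd_of_dvd_pow hd))) hA hσ hP

/-- Good at `q ≠ p`: unramified. -/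
theorem tateRep_isUnramifiedAt {q : ℕ} (hq : q.Prime) (hqp : q ≠ p)
    (hgood : ¬ (q : ℤ) ∣ E.Δ) : (tateRep p hΔ).IsUnramifiedAt q := by
  intro A hA σ hσ
  have h : tateMatHom (p := p) hΔ σ = 1 := tateMatHom_eq_one hΔ σ fun n P hP =>
    congrArg Subtype.val (galoisRepUnramifiedAt_of_good E hq hgood
      (fun hd => hqp ((Nat.prime_dvd_prime_iff_eq hq Fact.out).1 (hq.dvd_of_dvd_pow hd))) A hA σ hσ
      ⟨P, mem_tor_iff.mpr hP⟩)
  show Matrix.toLinAlgEquiv' (tateMatHom (p := p) hΔ σ) = 1
  rw [h, map_one]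

/-- The determinant of the Tate module is cyclotomic. -/
theorem tateRep_detIsCyclotomic (h : HasNonscalar E hΔ p) :
    (tateRep p hΔ).DetIsCyclotomic p := by
  refine ⟨?_, fun n σ a ha => ?_⟩
  · rw [PadicInt.maximalIdeal_eq_span_p]
    exact Ideal.mem_span_singleton_self _
  · rw [Nat.cast_pow, Ideal.mem_span_singleton,
      show LinearMap.det ((tateRep p hΔ).ρ σ) = FermatAgent.GalRep.cycChar p σ from
        (det_tateRep hΔ σ).trans (det_eq_cycChar E hΔ h σ)]
    exact FermatAgent.GalRep.pow_dvd_cycChar_sub p ha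

/-- Irreducible residual representation: the determinant is cyclotomic. -/
theorem tateRep_detIsCyclotomic_of_irreducible (h : E.ModRepIsIrreducible p) :
    (tateRep p hΔ).DetIsCyclotomic p :=
  tateRep_detIsCyclotomic hΔ (hasNonscalar_of_irreducible E hΔ h)

end

end FermatAgent.LocalP
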