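import Fermat.Agent.LocalP.Conditions.RootLemmas
import Fermat.Agent.LocalP.XFormulas
import Fermat.Agent.Local.Multiplicative
import Fermat.Agent.LocalP.AtP
import Mathlib.RingTheory.LocalRing.ResidueField.Basic

/-!
# The formal group part of the `p`-power torsion: non-trivial and `p`-divisible

For an integral equation with a unit coefficient in `ΨSq p` (good or multiplicative reduction, odd
`p`), `E₁` contains non-zero `p`-torsion and every point of `E₁` is `p` times a point of `E₁`.
-/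

set_option autoImplicit false

namespace FermatAgent.LocalP

open WeierstrassCurve WeierstrassCurve.Affine Polynomial
open FermatAgent.Local

noncomputable section

section General

variable {K : Type*} [Field K] [DecidableEq K] [IsAlgClosed K] (A : ValuationSubring K)
  (W : WeierstrassCurve.Affine K) (p : ℕ)

/-- The equation over `A` of an integral equation. -/
def intModel {A : ValuationSubring K} {W : WeierstrassCurve.Affine K} (hW : IntCoeffs A W) :
    WeierstrassCurve A :=
  ⟨⟨W.a₁, hW.a₁⟩, ⟨W.a₂, hW.a₂⟩, ⟨W.a₃, hW.a₃⟩, ⟨W.a₄, hW.a₄⟩, ⟨W.a₆, hW.a₆⟩⟩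

/-- The reduced equation. -/
def redCurve {A : ValuationSubring K} {W : WeierstrassCurve.Affine K} (hW : IntCoeffs A W) :
    WeierstrassCurve.Affine (IsLocalRing.ResidueField A) :=
  ((intModel hW).map (IsLocalRing.residue A)).toAffine

/-- `E₁` carries a `p`-divisible group of positive height. -/
structure HasFormalTorsion : Prop where
  divisible : ∀ T : W.Point, InE1 A W T → ∃ Q : W.Point, InE1 A W Q ∧ p • Q = T
  nontrivial : ∃ P : W.Point, P ≠ 0 ∧ p • P = 0 ∧ InE1 A W P

variable {A W p}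

omit [DecidableEq K] [IsAlgClosed K] in
lemma coeff_ΨSq_intModel (hW : IntCoeffs A W) (n : ℤ) (i : ℕ) :
    (W.ΨSq n).coeff i = (((intModel hW).ΨSq n).coeff i : K) := by
  conv_lhs => rw [← intModel_map hW]
  rw [map_ΨSq, coeff_map]
  rfl

omit [DecidableEq K] [IsAlgClosed K] in
lemma coeff_Φ_intModel (hW : IntCoeffs A W) (n : ℤ) (i : ℕ) :
    (W.Φ n).coeff i = (((intModel hW).Φ n).coeff i : K) := by
  conv_lhs => rw [← intModel_map hW]
  rw [map_Φ, coeff_map]
  rfl

omit [IsAlgClosed K] [DecidableEq K] in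
/-- A smooth `2`-torsion point of the reduction forces a unit coefficient of `ΨSq p`, `p` odd. -/
theorem exists_unit_coeff_ΨSq (hW : IntCoeffs A W) (hp : Odd p)
    {x y : IsLocalRing.ResidueField A} (h : (redCurve hW).Nonsingular x y)
    (h2 : y = (redCurve hW).negY x y) : ∃ i, A.valuation ((W.ΨSq p).coeff i) = 1 := by
  classical
  by_contra! hall
  have hzero : ((redCurve hW).ΨSq p) = 0 := by
    rw [redCurve, WeierstrassCurve.toAffine, map_ΨSq]
    ext i
    rw [coeff_map, coeff_zero, IsLocalRing.residue_eq_zero_iff,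
      ValuationSubring.valuation_lt_one_iff, ← coeff_ΨSq_intModel hW]
    refine lt_of_le_of_ne ?_ (hall i)
    rw [coeff_ΨSq_intModel hW]
    exact val_le_one_of_mem (Subtype.coe_prop _)
  have h0 : p • Point.some x y h = 0 := (nsmul_eq_zero_iff h p).2 (by rw [hzero, eval_zero])
  have h22 : 2 • Point.some x y h = 0 := by
    rw [two_nsmul]; exact Point.add_of_Y_eq rfl h2
  obtain ⟨k, rfl⟩ := hp
  rw [succ_nsmul, mul_comm, mul_nsmul', h22, nsmul_zero, zero_add] at h0
  exact Point.some_ne_zero h h0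

/-- `E₁` has non-zero `p`-torsion and is `p`-divisible. -/
theorem hasFormalTorsion_of_unit_coeff (hW : IntCoeffs A W) (hΔ : W.Δ ≠ 0) (hp : p.Prime)
    (hpK : (p : K) ≠ 0) (hpA : A.valuation (p : K) < 1) {i : ℕ}
    (hi : A.valuation ((W.ΨSq p).coeff i) = 1) : HasFormalTorsion A W p := by
  constructor
  · rintro (_ | ⟨t, u, hT⟩) hTE
    · exact ⟨0, trivial, nsmul_zero p⟩
    have ht0 : t ≠ 0 := fun h => hTE (h ▸ zero_mem A)
    have hs : A.valuation t⁻¹ < 1 := by
      rw [map_inv₀]; exact inv_lt_one_of_one_lt₀ (one_lt_val_of_not_mem hTE)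
    set f : K[X] := C t⁻¹ * W.Φ p - W.ΨSq p with hf
    have hdeg : f.natDegree ≤ p ^ 2 := by
      refine (natDegree_sub_le _ _).trans (max_le ((natDegree_C_mul_le _ _).trans ?_) ?_)
      · simp
      · exact (W.natDegree_ΨSq_le (p : ℤ)).trans (by simp)
    have hlead : f.coeff (p ^ 2) = t⁻¹ := by
      rw [hf, coeff_sub, coeff_C_mul, show (W.Φ p).coeff (p ^ 2) = 1 by
        simpa using W.coeff_Φ (p : ℤ), coeff_eq_zero_of_natDegree_lt, sub_zero, mul_one]
      refine (W.natDegree_ΨSq_le (p : ℤ)).trans_lt ?_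
      simpa using Nat.pos_of_ne_zero (pow_ne_zero 2 hp.ne_zero)
    have hlc : f.leadingCoeff = t⁻¹ := by
      rw [leadingCoeff, natDegree_eq_of_le_of_coeff_ne_zero hdeg (by rw [hlead]; exact inv_ne_zero ht0),
        hlead]
    obtain ⟨x, hx, hxA⟩ := exists_root_not_mem (A := A) (f := f) (hlc ▸ hs) (i := i) (by
      rw [hf, coeff_sub, coeff_C_mul, sub_eq_neg_add, A.valuation.map_add_eq_of_lt_left]
      · rw [Valuation.map_neg, hi]
      · rw [Valuation.map_neg, hi, map_mul]
        refine val_mul_lt_one_of_lt_of_le hs ?_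
        rw [coeff_Φ_intModel hW]
        exact val_le_one_of_mem (Subtype.coe_prop _))
    obtain ⟨y, hy⟩ := exists_point_over W hΔ x
    rw [hf, eval_sub, eval_mul, eval_C, sub_eq_zero] at hx
    have hne : (W.ΨSq p).eval x ≠ 0 := fun h0 => by
      rw [h0, mul_eq_zero, inv_eq_zero] at hx
      exact Φ_ΨSq_no_common_root W hΔ hp.ne_zero x h0 (hx.resolve_left ht0)
    obtain ⟨x', y', h', he, hxe⟩ := nsmul_eq_some hy p hne
    have hx't : x' = t := by
      refine mul_right_cancel₀ hne ?_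
      rw [hxe]
      exact (inv_mul_eq_iff_eq_mul₀ ht0).1 hx
    have hQ : InE1 A W (.some x y hy) := hxA
    by_cases heq : p • Point.some x y hy = .some t u hT
    · exact ⟨_, hQ, heq⟩
    refine ⟨-Point.some x y hy, hQ.neg', ?_⟩
    have hne0 : p • Point.some x y hy ≠ 0 := fun h0 => Point.some_ne_zero h' (he.symm.trans h0)
    by_contra hneg
    exact xCoord_ne_of_ne_neg hne0 (Point.some_ne_zero hT) heq
      (fun e => hneg (by rw [neg_nsmul, e, neg_neg])) (by rw [he]; exact hx't)
  · have hlc : (W.ΨSq p).leadingCoeff = ((p : ℤ) : K) ^ 2 :=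
      W.leadingCoeff_ΨSq (by simpa using hpK)
    obtain ⟨x, hx, hxA⟩ := exists_root_not_mem (A := A) (f := W.ΨSq p) (i := i) (by
      rw [hlc, map_pow]
      exact pow_lt_one₀ zero_le (by simpa using hpA) two_ne_zero) hi
    obtain ⟨y, hy⟩ := exists_point_over W hΔ x
    exact ⟨.some x y hy, Point.some_ne_zero hy, (nsmul_eq_zero_iff hy p).2 hx, hxA⟩

/-- Good reduction, odd `p`. -/
theorem hasFormalTorsion_of_good (hW : IntCoeffs A W) (hΔ : A.valuation W.Δ = 1) (hp : p.Prime)
    (hp2 : p ≠ 2) (hpK : (p : K) ≠ 0) (hpA : A.valuation (p : K) < 1) :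
    HasFormalTorsion A W p := by
  have hΔ0 : W.Δ ≠ 0 := fun h => by rw [h, map_zero] at hΔ; exact zero_ne_one hΔ
  set k := IsLocalRing.ResidueField A
  have h2K : A.valuation (2 : K) = 1 := by
    refine le_antisymm (val_le_one_of_mem (natCast_mem A 2)) (not_lt.1 fun hlt => ?_)
    obtain ⟨m, hm⟩ := hp.odd_of_ne_two hp2
    have : A.valuation (1 : K) < 1 := by
      rw [show (1 : K) = (p : K) - 2 * m by rw [hm]; push_cast; ring]
      refine A.valuation.map_sub_lt hpA ?_
      rw [map_mul]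
      exact val_mul_lt_one_of_lt_of_le hlt (val_le_one_of_mem (natCast_mem A m))
    rw [map_one] at this
    exact lt_irrefl _ this
  have h4K : A.valuation (4 : K) = 1 := by
    rw [show (4 : K) = 2 * 2 by norm_num, map_mul, h2K, one_mul]
  have h4 : (4 : K) ≠ 0 := fun h => by rw [h, map_zero] at h4K; exact zero_ne_one h4K
  obtain ⟨x₀, hx₀⟩ := IsAlgClosed.exists_root W.Ψ₂Sq (by
    rw [degree_eq_natDegree (W.Ψ₂Sq_ne_zero h4), W.natDegree_Ψ₂Sq h4]; decide)
  rw [IsRoot, WeierstrassCurve.Ψ₂Sq] at hx₀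
  simp only [eval_add, eval_mul, eval_C, eval_pow, eval_X] at hx₀
  have hb₆ : W.b₆ ∈ A :=
    add_mem (pow_mem hW.a₃ 2) (mul_mem (natCast_mem A 4) hW.a₆)
  have hb₂ : W.b₂ ∈ A :=
    add_mem (pow_mem hW.a₁ 2) (mul_mem (natCast_mem A 4) hW.a₂)
  have hb₄ : W.b₄ ∈ A :=
    add_mem (mul_mem (natCast_mem A 2) hW.a₄) (mul_mem hW.a₁ hW.a₃)
  have hx₀A : x₀ ∈ A := by
    by_contra hx
    have h1 := one_lt_val_of_not_mem hx
    have h23 : A.valuation x₀ ^ 2 < A.valuation x₀ ^ 3 := pow_lt_pow_right₀ h1 (by norm_num)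
    have : A.valuation (4 * x₀ ^ 3) < A.valuation x₀ ^ 3 := by
      rw [show 4 * x₀ ^ 3 = -(W.b₂ * x₀ ^ 2 + 2 * W.b₄ * x₀ + W.b₆) by linear_combination hx₀,
        Valuation.map_neg]
      refine A.valuation.map_add_lt (A.valuation.map_add_lt ?_ ?_) ?_
      · rw [map_mul, map_pow]
        exact (mul_le_of_le_one_left' (val_le_one_of_mem hb₂)).trans_lt h23
      · rw [map_mul]
        exact ((mul_le_of_le_one_left' (val_le_one_of_mem (mul_mem (natCast_mem A 2) hb₄))).trans
          (le_self_pow₀ h1.le two_ne_zero)).trans_lt h23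
      · exact ((val_le_one_of_mem hb₆).trans (one_le_pow₀ h1.le)).trans_lt h23
    rw [map_mul, map_pow, h4K, one_mul] at this
    exact lt_irrefl _ this
  set y₀ : K := -(W.a₁ * x₀ + W.a₃) / 2
  have h20 : (2 : K) ≠ 0 := fun h => by rw [h, map_zero] at h2K; exact zero_ne_one h2K
  have hy₀ : y₀ ∈ A := by
    refine mem_of_val_le_one ?_
    rw [map_div₀, h2K, div_one, Valuation.map_neg]
    exact val_le_one_of_mem (add_mem (mul_mem hW.a₁ hx₀A) hW.a₃)
  have he : (intModel hW).toAffine.Equation ⟨x₀, hx₀A⟩ ⟨y₀, hy₀⟩ := by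
    rw [Affine.equation_iff]
    apply Subtype.ext
    simp only [intModel, WeierstrassCurve.toAffine, MulMemClass.coe_mul, AddMemClass.coe_add,
      SubmonoidClass.coe_pow]
    rw [WeierstrassCurve.b₂, WeierstrassCurve.b₄, WeierstrassCurve.b₆] at hx₀
    simp only [y₀]
    field_simp
    linear_combination -hx₀
  set R := IsLocalRing.residue A
  have he' : (redCurve hW).Equation (R ⟨x₀, hx₀A⟩) (R ⟨y₀, hy₀⟩) := he.map R
  have hΔ' : (redCurve hW).Δ ≠ 0 := by
    show ((intModel hW).map R).Δ ≠ 0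
    rw [WeierstrassCurve.map_Δ, Ne, IsLocalRing.residue_eq_zero_iff,
      ValuationSubring.valuation_lt_one_iff,
      show (((intModel hW).Δ : A) : K) = W.Δ from ((intModel hW).map_Δ A.subtype).symm,
      hΔ]
    exact lt_irrefl _
  obtain ⟨i, hi⟩ := exists_unit_coeff_ΨSq hW (hp.odd_of_ne_two hp2)
    ((equation_iff_nonsingular_of_Δ_ne_zero hΔ').1 he') (by
      show R _ = Affine.negY ((intModel hW).map R).toAffine (R _) (R _)
      rw [Affine.map_negY]
      congr 1
      apply Subtype.ext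
      simp only [Affine.negY, intModel, AddSubgroupClass.coe_sub,
        MulMemClass.coe_mul, NegMemClass.coe_neg, y₀]
      field_simp
      ring)
  exact hasFormalTorsion_of_unit_coeff hW hΔ0 hp hpK hpA hi

end General

end

end FermatAgent.LocalP
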