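import Fermat.Agent.LocalP.Conditions.Mult
import Fermat.Agent.GalRep.Tate.Module
import Fermat.Prelude.Def_GaloisRep_StrictOrdinary

/-!
# The line of the `p`-adic Tate module cut out by `E₁`
-/

set_option autoImplicit false

open scoped WeierstrassCurve.Affine

namespace FermatAgent.LocalP

open WeierstrassCurve WeierstrassCurve.Affine Matrix
open FermatAgent.Local FermatAgent.GalRep.Tate

noncomputable section

local notation "Qb" => AlgebraicClosure ℚ
local notation "GQ" => AlgebraicClosure ℚ ≃ₐ[ℚ] AlgebraicClosure ℚ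

variable {E : WeierstrassCurve ℤ} {p : ℕ} [Fact p.Prime]
  (hΔ : (E.map (Int.castRingHom ℚ)).Δ ≠ 0)

/-- The image in `E[pⁿ]` of a vector of the Tate module. -/
def ptOf (n : ℕ) (v : Fin 2 → ℤ_[p]) : (qbarCurve E).Point :=
  (comb (p := p) hΔ n (fun i => PadicInt.toZModPow n (v i)) : Pt (E.map (Int.castRingHom ℚ)))

lemma pow_nsmul_ptOf (n : ℕ) (v : Fin 2 → ℤ_[p]) : p ^ n • ptOf hΔ n v = 0 :=
  mem_tor_iff.mp (comb (p := p) hΔ n _).2

lemma ptOf_add (n : ℕ) (v w : Fin 2 → ℤ_[p]) : ptOf hΔ n (v + w) = ptOf hΔ n v + ptOf hΔ n w := by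
  unfold ptOf
  rw [← Submodule.coe_add, ← map_add]
  congr
  funext i
  exact map_add (PadicInt.toZModPow n) _ _

/-- `ptOf` as a homomorphism. -/
def ptOfHom (n : ℕ) : (Fin 2 → ℤ_[p]) →+ (qbarCurve E).Point :=
  AddMonoidHom.mk' (ptOf hΔ n) (ptOf_add hΔ n)

lemma ptOf_sub (n : ℕ) (v w : Fin 2 → ℤ_[p]) : ptOf hΔ n (v - w) = ptOf hΔ n v - ptOf hΔ n w :=
  map_sub (ptOfHom hΔ n) v w

lemma ptOf_smul (n : ℕ) (a : ℤ_[p]) (v : Fin 2 → ℤ_[p]) :
    ptOf hΔ n (a • v) = (PadicInt.toZModPow n a).val • ptOf hΔ n v := by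
  have : NeZero (p ^ n) := ⟨pow_ne_zero n (Fact.out : p.Prime).ne_zero⟩
  unfold ptOf
  rw [← coe_zmod_smul, ← map_smul]
  congr
  funext i
  exact map_mul (PadicInt.toZModPow n) _ _

lemma nsmul_ptOf_succ (n : ℕ) (v : Fin 2 → ℤ_[p]) : p • ptOf hΔ (n + 1) v = ptOf hΔ n v := by
  have : NeZero (p ^ n) := ⟨pow_ne_zero n (Fact.out : p.Prime).ne_zero⟩
  have : NeZero (p ^ (n + 1)) := ⟨pow_ne_zero _ (Fact.out : p.Prime).ne_zero⟩
  have key : ∀ i, (PadicInt.toZModPow (n + 1) (v i)).val • basisPt (p := p) hΔ n i =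
      (PadicInt.toZModPow n (v i)).val • basisPt (p := p) hΔ n i := by
    intro i
    rw [← PadicInt.cast_toZModPow n (n + 1) n.le_succ (v i), ← ZMod.natCast_val, ZMod.val_natCast]
    exact nsmul_eq_mod_nsmul _ (pow_nsmul_basisPt hΔ n i)
  unfold ptOf
  rw [coe_comb, coe_comb, nsmul_add, smul_comm p, smul_comm p, nsmul_basisPt_succ (p := p),
    nsmul_basisPt_succ (p := p), key, key]

lemma smul_ptOf (n : ℕ) (σ : GQ) (v : Fin 2 → ℤ_[p]) :
    σ • ptOf hΔ n v = ptOf hΔ n ((tateRep p hΔ).ρ σ v) := by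
  have hv : (fun i => PadicInt.toZModPow n ((tateMatHom (p := p) hΔ σ *ᵥ v) i)) =
      levelMat (p := p) hΔ n σ *ᵥ fun i => PadicInt.toZModPow n (v i) := by
    funext i
    rw [RingHom.map_mulVec, ← tateMatHom_toZModPow]
    rfl
  show _ = ptOf hΔ n (tateMatHom (p := p) hΔ σ *ᵥ v)
  unfold ptOf
  rw [hv]
  set c : Fin 2 → ZMod (p ^ n) := fun i => PadicInt.toZModPow n (v i)
  set r := Point.galoisRepModuleEnd (K := Qb) ℚ (E.map (Int.castRingHom ℚ)) (p ^ n) σ
  have hr : (torBasis (p := p) hΔ n).repr (comb (p := p) hΔ n c) = c := by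
    funext i
    rw [torBasis, Module.Basis.ofEquivFun_repr_apply]
    exact congrFun ((LinearEquiv.ofBijective (comb (p := p) hΔ n) (comb_bijective hΔ n)).symm_apply_apply c) i
  have h1 := LinearMap.toMatrix_mulVec_repr (torBasis (p := p) hΔ n) (torBasis (p := p) hΔ n) r
    (comb (p := p) hΔ n c)
  rw [hr] at h1
  have h2 : comb (p := p) hΔ n (levelMat (p := p) hΔ n σ *ᵥ c) = r (comb (p := p) hΔ n c) := by
    have h3 : levelMat (p := p) hΔ n σ *ᵥ c =
        ⇑((torBasis (p := p) hΔ n).repr (r (comb (p := p) hΔ n c))) := h1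
    rw [h3]
    apply (LinearEquiv.ofBijective (comb (p := p) hΔ n) (comb_bijective hΔ n)).symm.injective
    rw [show comb (p := p) hΔ n ⇑((torBasis (p := p) hΔ n).repr (r (comb (p := p) hΔ n c))) =
      (LinearEquiv.ofBijective (comb (p := p) hΔ n) (comb_bijective hΔ n))
        ⇑((torBasis (p := p) hΔ n).repr (r (comb (p := p) hΔ n c))) from rfl,
      LinearEquiv.symm_apply_apply]
    funext i
    rw [torBasis, Module.Basis.ofEquivFun_repr_apply]
  exact (congrArg Subtype.val h2).symm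

lemma exists_ptOf_eq (n : ℕ) {P : (qbarCurve E).Point} (hP : p ^ n • P = 0) :
    ∃ v : Fin 2 → ℤ_[p], ptOf hΔ n v = P := by
  have : NeZero (p ^ n) := ⟨pow_ne_zero n (Fact.out : p.Prime).ne_zero⟩
  obtain ⟨c, hc⟩ := (comb_bijective (p := p) hΔ n).2 ⟨P, mem_tor_iff.mpr hP⟩
  refine ⟨fun i => ((c i).val : ℤ_[p]), ?_⟩
  unfold ptOf
  simp only [map_natCast, ZMod.natCast_zmod_val]
  exact congrArg Subtype.val hc

lemma toZModPow_eq_of_ptOf_eq {n : ℕ} {v w : Fin 2 → ℤ_[p]} (h : ptOf hΔ n v = ptOf hΔ n w)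
    (i : Fin 2) : PadicInt.toZModPow n (v i) = PadicInt.toZModPow n (w i) :=
  congrFun ((comb_bijective (p := p) hΔ n).1 (Subtype.ext h)) i

variable (A : ValuationSubring Qb)

/-- A basis whose first vector spans the vectors lying in `E₁` at all levels. -/
theorem exists_basis_line (hF : HasFormalTorsion A (qbarCurve E) p)
    (hne : ∃ P : (qbarCurve E).Point, p • P = 0 ∧ ¬ InE1 A (qbarCurve E) P) :
    ∃ b : Module.Basis (Fin 2) ℤ_[p] (Fin 2 → ℤ_[p]),
      ∀ v, v ∈ Submodule.span ℤ_[p] {b 0} ↔ ∀ n, InE1 A (qbarCurve E) (ptOf hΔ n v) := by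
  classical
  have hp := (Fact.out : p.Prime)
  set H := e1Subgroup A (qbarCurve E) (qbarCurve_intCoeffs E A)
  -- `E₁[p]` is cyclic
  obtain ⟨P₁, hP₁0, hP₁p, hP₁E⟩ := hF.nontrivial
  obtain ⟨v₁, hv₁⟩ := exists_ptOf_eq hΔ 1 (by rwa [pow_one] : p ^ 1 • P₁ = 0)
  have hsmall : ∀ P : (qbarCurve E).Point, p • P = 0 → InE1 A (qbarCurve E) P →
      ∃ m : ℕ, P = m • P₁ := by
    intro P hP hPE
    obtain ⟨v, hv⟩ := exists_ptOf_eq hΔ 1 (by rwa [pow_one] : p ^ 1 • P = 0)
    by_contra hno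
    obtain ⟨R, hR, hRE⟩ := hne
    obtain ⟨u, hu⟩ := exists_ptOf_eq hΔ 1 (by rwa [pow_one] : p ^ 1 • R = 0)
    have : NeZero (p ^ 1) := ⟨pow_ne_zero 1 hp.ne_zero⟩
    let M : Submodule (ZMod (p ^ 1)) (Fin 2 → ZMod (p ^ 1)) :=
      { carrier := {c | InE1 A (qbarCurve E) (comb (p := p) hΔ 1 c : Pt (E.map (Int.castRingHom ℚ)))}
        add_mem' := fun {a b} ha hb => by
          show InE1 A (qbarCurve E) _
          rw [map_add, Submodule.coe_add]
          exact H.add_mem ha hb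
        zero_mem' := by
          show InE1 A (qbarCurve E) _
          rw [map_zero]; trivial
        smul_mem' := fun a c hc => by
          show InE1 A (qbarCurve E) _
          rw [map_smul, coe_zmod_smul]
          exact H.nsmul_mem hc _ }
    have hpr : (p ^ 1).Prime := by rwa [pow_one]
    have : Fact (p ^ 1).Prime := ⟨hpr⟩
    let a₁ : Fin 2 → ZMod (p ^ 1) := fun i => PadicInt.toZModPow 1 (v₁ i)
    let a : Fin 2 → ZMod (p ^ 1) := fun i => PadicInt.toZModPow 1 (v i)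
    have ha₁ : a₁ ∈ M := by show InE1 A _ (ptOf hΔ 1 v₁); rwa [hv₁]
    have ha : a ∈ M := by show InE1 A _ (ptOf hΔ 1 v); rwa [hv]
    have hli : LinearIndependent (ZMod (p ^ 1)) ![a₁, a] := by
      rw [LinearIndependent.pair_iff' (fun h => hP₁0 (by
        rw [← hv₁]; show ((comb (p := p) hΔ 1 a₁ : Tor _ p 1) : Pt (E.map (Int.castRingHom ℚ))) = 0; rw [h, map_zero]; rfl))]
      intro t ht
      refine hno ⟨t.val, ?_⟩
      rw [← hv, ← hv₁]
      show ((comb (p := p) hΔ 1 a : Tor _ p 1) : Pt (E.map (Int.castRingHom ℚ))) = t.val • ((comb (p := p) hΔ 1 a₁ : Tor _ p 1) : Pt (E.map (Int.castRingHom ℚ)))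
      rw [← coe_zmod_smul, ← map_smul, ht]
    have htop : M = ⊤ := by
      refine Submodule.eq_top_of_finrank_eq (le_antisymm (Submodule.finrank_le _) ?_)
      rw [Module.finrank_fin_fun]
      have h2 := finrank_span_eq_card hli
      rw [Fintype.card_fin] at h2
      refine h2.symm.le.trans (Submodule.finrank_mono (Submodule.span_le.2 ?_))
      rintro _ ⟨i, rfl⟩
      fin_cases i
      exacts [ha₁, ha]
    refine hRE ?_
    rw [← hu]
    exact (htop ▸ Submodule.mem_top : (fun i => PadicInt.toZModPow 1 (u i)) ∈ M)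
  -- compatible generators
  choose dv hdvE hdv using hF.divisible
  let G : ℕ → {P : (qbarCurve E).Point // InE1 A (qbarCurve E) P} := fun n =>
    Nat.rec ⟨P₁, hP₁E⟩ (fun _ P => ⟨dv P.1 P.2, hdvE P.1 P.2⟩) n
  have hG : ∀ n, p • (G (n + 1)).1 = (G n).1 := fun n => hdv (G n).1 (G n).2
  have hGkill : ∀ n, p ^ (n + 1) • (G n).1 = 0 := by
    intro n
    induction n with
    | zero => rw [pow_one]; exact hP₁p
    | succ n ih => rw [pow_succ, mul_nsmul', hG, ih]
  have hGtop : ∀ n, p ^ n • (G n).1 = P₁ := by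
    intro n
    induction n with
    | zero => exact one_nsmul _
    | succ n ih => rw [pow_succ, mul_nsmul', hG, ih]
  have hgen : ∀ (n : ℕ) (P : (qbarCurve E).Point), p ^ (n + 1) • P = 0 →
      InE1 A (qbarCurve E) P → ∃ m : ℕ, P = m • (G n).1 := by
    intro n
    induction n with
    | zero => intro P hP hPE; exact hsmall P (by rwa [pow_one] at hP) hPE
    | succ n ih =>
      intro P hP hPE
      obtain ⟨m, hm⟩ := ih (p • P) (by rw [← mul_nsmul', ← pow_succ, hP]) (H.nsmul_mem hPE p)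
      obtain ⟨d, hd⟩ := hsmall (P - m • (G (n + 1)).1)
        (by rw [nsmul_sub, smul_comm, hG, hm, sub_self])
        (H.sub_mem hPE (H.nsmul_mem (G (n + 1)).2 m))
      refine ⟨d * p ^ (n + 1) + m, ?_⟩
      rw [add_nsmul, mul_nsmul', hGtop, ← hd, sub_add_cancel]
  choose g hg using fun n => exists_ptOf_eq hΔ (n + 1) (hGkill n)
  have hcompat : ∀ i n, ZMod.castHom (pow_dvd_pow p n.le_succ) (ZMod (p ^ n))
      ((fun m => PadicInt.toZModPow m (g m i)) (n + 1)) =
        (fun m => PadicInt.toZModPow m (g m i)) n := by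
    intro i n
    show ZMod.castHom _ _ (PadicInt.toZModPow (n + 1) (g (n + 1) i)) = PadicInt.toZModPow n (g n i)
    rw [ZMod.castHom_apply, PadicInt.cast_toZModPow n (n + 1) n.le_succ]
    refine toZModPow_eq_of_ptOf_eq hΔ ?_ i
    rw [← nsmul_ptOf_succ hΔ n (g n), hg n, ← nsmul_ptOf_succ hΔ n, ← nsmul_ptOf_succ hΔ (n + 1),
      hg (n + 1), hG]
  choose c hc using fun i =>
    FermatAgent.GalRep.exists_padicInt_of_compatible (fun m => PadicInt.toZModPow m (g m i))
      (hcompat i)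
  have hcG : ∀ n, ptOf hΔ (n + 1) c = (G n).1 := by
    intro n
    rw [← hG n, ← hg (n + 1), nsmul_ptOf_succ]
    unfold ptOf
    congr
    funext i
    exact hc i (n + 1)
  have hunit : IsUnit (c 0) ∨ IsUnit (c 1) := by
    by_contra! h
    refine hP₁0 ?_
    have h1 := hcG 0
    have h0 : ∀ i, PadicInt.toZModPow 1 (c i) = 0 := by
      intro i
      rw [← RingHom.mem_ker, PadicInt.ker_toZModPow, pow_one, ← PadicInt.maximalIdeal_eq_span_p]
      fin_cases i
      exacts [h.1, h.2]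
    have : ptOf hΔ 1 c = 0 := by
      unfold ptOf
      rw [show (fun i => PadicInt.toZModPow 1 (c i)) = 0 from funext h0, map_zero]
      rfl
    exact h1.symm.trans this
  obtain ⟨w, hw⟩ : ∃ w : Fin 2 → ℤ_[p], IsUnit (c 0 * w 1 - c 1 * w 0) := by
    rcases hunit with h | h
    · exact ⟨![0, 1], by simpa using h⟩
    · exact ⟨![1, 0], by simpa using h.neg⟩
  set Q : Matrix (Fin 2) (Fin 2) ℤ_[p] := !![c 0, w 0; c 1, w 1]
  have hQ : IsUnit Q.det := by
    rw [Matrix.det_fin_two_of, mul_comm (w 0)]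
    exact hw
  set b := (Pi.basisFun ℤ_[p] (Fin 2)).map (DefRing.matEquiv Q hQ)
  have hb0 : b 0 = c := by
    show Q *ᵥ (Pi.basisFun ℤ_[p] (Fin 2) 0) = c
    funext i
    fin_cases i <;> simp [Q, Matrix.mulVec, dotProduct]
  refine ⟨b, fun v => ⟨fun hv n => ?_, fun hv => ?_⟩⟩
  · obtain ⟨a, rfl⟩ := Submodule.mem_span_singleton.1 hv
    rw [hb0, ptOf_smul]
    refine H.nsmul_mem ?_ _
    show InE1 A (qbarCurve E) (ptOf hΔ n c)
    rw [← nsmul_ptOf_succ, hcG]
    exact H.nsmul_mem (G n).2 p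
  · have hD : c 0 * v 1 - c 1 * v 0 = 0 := by
      refine PadicInt.ext_of_toZModPow.1 fun n => ?_
      rcases n with _ | n
      · exact (by rw [pow_zero]; exact fun x y => Subsingleton.elim x y :
          ∀ x y : ZMod (p ^ 0), x = y) _ _
      obtain ⟨m, hm⟩ := hgen n _ (pow_nsmul_ptOf hΔ (n + 1) v) (hv (n + 1))
      have e : ptOf hΔ (n + 1) v = ptOf hΔ (n + 1) (m • c) := by
        rw [hm, ← hcG]; exact (map_nsmul (ptOfHom hΔ (n + 1)) m c).symm
      rw [map_sub, map_mul, map_mul, toZModPow_eq_of_ptOf_eq hΔ e 1, toZModPow_eq_of_ptOf_eq hΔ e 0]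
      simp only [Pi.smul_apply, nsmul_eq_mul, map_mul, map_natCast, map_zero]
      ring
    rw [Submodule.mem_span_singleton]
    refine ⟨b.repr v 0, ?_⟩
    have hv2 := b.sum_repr v
    rw [Fin.sum_univ_two] at hv2
    have hb1 : b 1 = w := by
      show Q *ᵥ (Pi.basisFun ℤ_[p] (Fin 2) 1) = w
      funext i
      fin_cases i <;> simp [Q, Matrix.mulVec, dotProduct]
    have e0 := congrFun hv2 0
    have e1 := congrFun hv2 1
    rw [hb0, hb1] at e0 e1
    simp only [Pi.add_apply, Pi.smul_apply, smul_eq_mul] at e0 e1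
    have : b.repr v 1 * (c 0 * w 1 - c 1 * w 0) = 0 := by
      linear_combination hD + c 0 * e1 - c 1 * e0
    have h1 : b.repr v 1 = 0 := (mul_eq_zero.1 this).resolve_right hw.ne_zero
    rw [h1, zero_smul, add_zero] at hv2
    exact hv2

end

end FermatAgent.LocalP
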