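import Fermat.Agent.LocalP.Conditions.FlatModel
import Fermat.Agent.LocalP.Conditions.Line

/-!
# The Tate module of a curve with good reduction at `p` is flat at `p`
-/

set_option autoImplicit false

open scoped WeierstrassCurve.Affine TensorProduct

namespace FermatAgent.LocalP

open WeierstrassCurve FermatAgent.Local FermatAgent.GalRep.Flat FermatAgent.GalRep.Tate FlatModel

noncomputable section

local notation "Qb" => AlgebraicClosure ℚ
local notation "GQ" => AlgebraicClosure ℚ ≃ₐ[ℚ] AlgebraicClosure ℚ
local notation "Rp" => GaloisRep.ratLocalizedAt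

variable {E : WeierstrassCurve ℤ} {p : ℕ}

/-- A finite Galois-stable group of points of a curve with good reduction at `p` has a function
model over `ℤ_(p)`. -/
theorem nonempty_functionModel_of_points (hp : p.Prime) (hgood : ¬ (p : ℤ) ∣ E.Δ) {M : Type}
    [AddCommGroup M] [Finite M] (ι : M →+ (qbarCurve E).Point) (hι : Function.Injective ι)
    (act : GQ → M → M) (hact : ∀ σ m, ι (act σ m) = σ • ι m) :
    Nonempty (FunctionModel p M act) := by
  classical
  obtain ⟨A, -, hA, -⟩ := FermatAgent.RT.exists_place_isFrobeniusAt hp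
  have hW := qbarCurve_intCoeffs E A
  have hΔ : A.valuation (qbarCurve E).Δ = 1 := by
    rw [qbarCurve_Δ]; exact val_intCast_eq_one hp hA hgood
  obtain ⟨d, hd0, hd⟩ := exists_goodExp hp hA hgood ι
  obtain ⟨R, hRn, hRc, hR⟩ := exists_normalised hp hA hgood ι d hd0 hd
  have heq := modelAlg_equivariant (p := p) ι d act hact
  have hval := modelAlg_mem hp hA hgood ι d hd0 hd
  have hfg := modelAlg_fg hp hA hgood ι d act hact hd0 hd
  set G := modelAlg p ι d with hG
  have : Module.Finite (Rp p) G := Module.Finite.iff_fg.mpr hfg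
  have hsurj : ∀ σ, Function.Surjective (act σ) := fun σ =>
    Finite.surjective_of_injective fun a b h => hι (MulAction.injective σ
      ((hact σ a).symm.trans ((congrArg ι h).trans (hact σ b))))
  have hadd : ∀ σ a b, act σ (a + b) = act σ a + act σ b := fun σ a b => hι (by
    rw [hact, map_add, map_add, hact, hact]
    simp only [galois_smul_eq_conjPoint, map_add])
  refine ⟨⟨G, hfg, heq, ?_, ?_, ?_⟩⟩
  · intro a b h
    have hk : ∀ e : Fin (d * 2) → Fin 3, genFun ι d e a = genFun ι d e b := fun e =>
      h _ (Algebra.subset_adjoin ⟨e, rfl⟩)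
    have hne : ∀ m, gForm d (pRep (ι m)) ≠ 0 := fun m => gForm_ne_zero hp hA hgood ι d (hd m)
    refine hι ?_
    have hz := hk fun _ => 2
    simp only [genFun, Finset.prod_const, Finset.card_univ, Fintype.card_fin] at hz
    have hcase : ∀ P : (qbarCurve E).Point, pRep P 2 = 0 ∨ pRep P 2 = 1 := by
      rintro (_ | ⟨x, y, h⟩)
      · exact Or.inl (by simp [pRep])
      · exact Or.inr (by simp [pRep])
    have h20 : d * 2 ≠ 0 := by omega
    have hpt : ∀ P : (qbarCurve E).Point, pRep P 2 = 0 → P = 0 := by
      rintro (_ | ⟨x, y, h⟩) e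
      · rfl
      · simp [pRep] at e
    rcases hcase (ι a) with ha | ha <;> rcases hcase (ι b) with hb | hb <;>
      rw [ha, hb] at hz
    · rw [hpt _ ha, hpt _ hb]
    · simp [zero_pow h20] at hz
      exact absurd hz.symm (hne b)
    · simp [zero_pow h20] at hz
      exact absurd hz (hne a)
    rw [one_pow] at hz
    have hGe : gForm d (pRep (ι a)) = gForm d (pRep (ι b)) := by simpa using hz
    have hco : ∀ j : Fin 3, pRep (ι a) j = pRep (ι b) j := fun j => by
      have hj := hk (Function.update (fun _ => (2 : Fin 3)) ⟨0, by omega⟩ j)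
      simp only [genFun] at hj
      rw [← Finset.mul_prod_erase _ _ (Finset.mem_univ (⟨0, by omega⟩ : Fin (d * 2))),
        ← Finset.mul_prod_erase (f := fun k => pRep (ι b) _) _
          (Finset.mem_univ (⟨0, by omega⟩ : Fin (d * 2)))] at hj
      rw [Function.update_self, hGe, div_left_inj' (hne b)] at hj
      have e : ∀ P : (qbarCurve E).Point, pRep P 2 = 1 →
          ∏ k ∈ (Finset.univ : Finset (Fin (d * 2))).erase ⟨0, by omega⟩,
            pRep P (Function.update (fun _ => (2 : Fin 3)) ⟨0, by omega⟩ j k) = 1 := fun P hP =>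
        Finset.prod_eq_one fun k hk' => by
          rw [Function.update_of_ne (Finset.ne_of_mem_erase hk'), hP]
      rwa [e _ ha, e _ hb, mul_one, mul_one] at hj
    revert hco ha hb
    rcases ι a with _ | ⟨x, y, h⟩ <;> rcases ι b with _ | ⟨x', y', h'⟩ <;> intro ha hb hco
    all_goals first
      | rfl
      | (simp [pRep] at ha; done)
      | (simp [pRep] at hb; done)
      | skip
    have h0 := hco 0
    have h1 := hco 1
    simp [pRep] at h0 h1
    subst h0 h1
    rfl
  · -- addition
    let B := (prodTensor G.val G.val).range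
    have : Module.Finite (Rp p) B :=
      Module.Finite.of_surjective (prodTensor G.val G.val).rangeRestrict.toLinearMap
        (AlgHom.rangeRestrict_surjective _)
    intro f hf
    refine precomp_mem hp hA hgood ι d act hd0 hd (actN := fun σ z => (act σ z.1, act σ z.2))
      (fun σ => (hsurj σ).prodMap (hsurj σ)) B ?_ ?_ addMap (fun σ z => (hadd σ z.1 z.2).symm) hact
      (fun z₀ => ?_) hf
    · rintro _ ⟨t, rfl⟩ σ z
      induction t using TensorProduct.induction_on with
      | zero => simp
      | tmul a b => simp [prodTensor_tmul, heq _ a.2 σ, heq _ b.2 σ]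
      | add a b ha hb => simp only [RingHom.coe_coe, AlgHom.toRingHom_eq_coe] at ha hb ⊢; simp [ha, hb]
    · rintro _ ⟨t, rfl⟩ z
      induction t using TensorProduct.induction_on with
      | zero => simp
      | tmul a b =>
        show prodTensor G.val G.val (a ⊗ₜ b) z ∈ A
        rw [prodTensor_tmul]
        exact mul_mem (hval _ a.2 _) (hval _ b.2 _)
      | add a b ha hb =>
        simp only [RingHom.coe_coe, AlgHom.toRingHom_eq_coe, map_add, Pi.add_apply] at ha hb ⊢
        exact add_mem ha hb
    set S := Algebra.adjoin A (B : Set (M × M → Qb))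
    set U := Submodule.span A (Set.range fun i (z : M × M) => coeVec (R z.1) i)
    set V := Submodule.span A (Set.range fun i (z : M × M) => coeVec (R z.2) i)
    have hU : U ^ (d * 2) ≤ Subalgebra.toSubmodule S := by
      rw [Submodule.span_pow, Submodule.span_le]
      intro g hg
      obtain ⟨e, rfl⟩ := Set.mem_pow.1 hg
      choose j hj using fun k => (e k).2
      refine Algebra.subset_adjoin ⟨⟨genFun ι d j, Algebra.subset_adjoin ⟨j, rfl⟩⟩ ⊗ₜ 1, ?_⟩
      funext z
      rw [List.prod_ofFn, Finset.prod_apply]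
      show prodTensor G.val G.val _ z = _
      rw [prodTensor_tmul]
      simp [hR, ← hj]
    have hV : V ^ (d * 2) ≤ Subalgebra.toSubmodule S := by
      rw [Submodule.span_pow, Submodule.span_le]
      intro g hg
      obtain ⟨e, rfl⟩ := Set.mem_pow.1 hg
      choose j hj using fun k => (e k).2
      refine Algebra.subset_adjoin ⟨1 ⊗ₜ ⟨genFun ι d j, Algebra.subset_adjoin ⟨j, rfl⟩⟩, ?_⟩
      funext z
      rw [List.prod_ofFn, Finset.prod_apply]
      show prodTensor G.val G.val _ z = _
      rw [prodTensor_tmul]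
      simp [hR, ← hj]
    obtain ⟨L, hL1, hL2, hL3⟩ := exists_law hW hΔ U V (fun z => coeVec (R z.1)) (fun z => coeVec (R z.2))
      (fun z => ι z.1) (fun z => ι z.2) (fun i => Submodule.subset_span ⟨i, rfl⟩)
      (fun i => Submodule.subset_span ⟨i, rfl⟩) (fun z => hRc z.1) (fun z => hRc z.2) z₀
      rfl rfl (hRn z₀.1) (hRn z₀.2)
    refine ⟨U ^ 4 * V ^ 4, L, ?_, hL1, fun z => ?_, hL3⟩
    · rw [mul_pow, ← pow_mul U, ← pow_mul V, mul_comm 4 (d * 2), pow_mul U (d * 2) 4, pow_mul V (d * 2) 4]
      exact Submodule.mul_le.2 fun a ha b hb =>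
        S.mul_mem (pow_le_subalgebra S hU 4 ha) (pow_le_subalgebra S hV 4 hb)
    · obtain ⟨c, hc⟩ := hL2 z
      exact ⟨c, by rw [hc, ← map_add]⟩
  · -- negation
    intro f hf
    refine precomp_mem hp hA hgood ι d act hd0 hd hsurj G heq hval (fun x => -x)
      (fun σ x => hι (by
        rw [map_neg, hact, hact, map_neg]
        simp only [galois_smul_eq_conjPoint, map_neg])) hact (fun z₀ => ?_) hf
    set S := Algebra.adjoin A (G : Set (M → Qb))
    set U := Submodule.span A (Set.range fun i (z : M) => coeVec (R z) i)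
    have hU : U ^ (d * 2) ≤ Subalgebra.toSubmodule S := by
      rw [Submodule.span_pow, Submodule.span_le]
      intro g hg
      obtain ⟨e, rfl⟩ := Set.mem_pow.1 hg
      choose j hj using fun k => (e k).2
      refine Algebra.subset_adjoin ?_
      have e' : (List.ofFn fun i => (e i : M → Qb)).prod = genFun ι d j := by
        funext z
        rw [List.prod_ofFn, Finset.prod_apply, hR]
        simp [← hj]
      rw [e']
      exact Algebra.subset_adjoin ⟨j, rfl⟩
    have hneg : ∀ z, coeVec ((intModel hW).toProjective.neg (R z)) =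
        (qbarCurve E).toProjective.neg (coeVec (R z)) := fun z =>
      (Projective.map_neg (W' := (intModel hW).toProjective) A.subtype (R z)).symm
    refine ⟨U, fun z => coeVec ((intModel hW).toProjective.neg (R z)), hU, fun i => ?_,
      fun z => ?_, ?_⟩
    · have h : ∀ i, (fun z : M => coeVec (R z) i) ∈ U := fun i => Submodule.subset_span ⟨i, rfl⟩
      fin_cases i
      · exact h 0
      · have := U.sub_mem (U.sub_mem (U.neg_mem (h 1))
          (U.smul_mem (⟨_, hW.a₁⟩ : A) (h 0))) (U.smul_mem (⟨_, hW.a₃⟩ : A) (h 2))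
        exact this
      · exact h 2
    · obtain ⟨c, hc⟩ := hRc z
      obtain ⟨c', hc'⟩ := exists_smul_pRep (Projective.nonsingular_neg (nonsingular_pRep (ι z)))
      rw [Projective.Point.toAffine_neg (nonsingular_pRep (ι z)), toAffine_pRep] at hc'
      refine ⟨c * c', ?_⟩
      show coeVec _ = _
      rw [hneg, hc, Projective.neg_smul, hc', smul_smul, map_neg]
    · refine isPrim_coeVec hW ?_
      have e : redVec ((intModel hW).toProjective.neg (R z₀)) =
          (redCurve hW).toProjective.neg (redVec (R z₀)) :=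
        (Projective.map_neg (W' := (intModel hW).toProjective) (IsLocalRing.residue A) (R z₀)).symm
      rw [e]
      exact Projective.nonsingular_neg (hRn z₀)

variable [Fact p.Prime]

/-- Good reduction at `p`: the Tate module is flat at `p`. -/
theorem tateRep_isFlatAt (hΔ : (E.map (Int.castRingHom ℚ)).Δ ≠ 0) (hgood : ¬ (p : ℤ) ∣ E.Δ) :
    (tateRep p hΔ).IsFlatAt p := by
  have hp : p.Prime := Fact.out
  refine ⟨Finite.of_equiv _ (PadicInt.residueField (p := p)).symm.toEquiv, fun I hI => ?_⟩
  have hI0 : I ≠ ⊥ := by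
    rintro rfl
    have := Finite.of_equiv _ (RingEquiv.quotientBot ℤ_[p]).toEquiv
    exact not_finite ℤ_[p]
  obtain ⟨n, rfl⟩ := PadicInt.ideal_eq_span_pow_p hI0
  have : NeZero (p ^ n) := ⟨pow_ne_zero n hp.ne_zero⟩
  set V := Fin 2 → ℤ_[p]
  set K : Submodule ℤ_[p] V := Ideal.span {(p : ℤ_[p]) ^ n} • ⊤
  have hK : ∀ v : V, v ∈ K ↔ ptOf hΔ n v = 0 := fun v => by
    rw [FermatAgent.DefRing.pi_mem_smul_top_iff]
    constructor
    · intro h
      unfold ptOf
      rw [show (fun i => PadicInt.toZModPow n (v i)) = 0 from funext fun i => by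
        rw [Pi.zero_apply, ← RingHom.mem_ker, PadicInt.ker_toZModPow]; exact h i, map_zero]
      rfl
    · intro h i
      rw [← PadicInt.ker_toZModPow, RingHom.mem_ker,
        toZModPow_eq_of_ptOf_eq hΔ (v := v) (w := 0) (h.trans (map_zero (ptOfHom hΔ n)).symm) i]
      exact map_zero _
  let ι : (V ⧸ K) →+ (qbarCurve E).Point :=
    QuotientAddGroup.lift K.toAddSubgroup (ptOfHom hΔ n) fun v hv => (hK v).1 hv
  have hι : Function.Injective ι := (injective_iff_map_eq_zero ι).2 fun q => by
    induction q using Submodule.Quotient.induction_on with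
    | _ v => exact fun h => (Submodule.Quotient.mk_eq_zero K).2 ((hK v).2 h)
  have := Local.finite_torsion_qbar (E.map (Int.castRingHom ℚ)) hΔ (pow_ne_zero n hp.ne_zero)
  have : Finite (V ⧸ K) := by
    refine Finite.of_injective (fun q => (⟨ι q, ?_⟩ :
      Submodule.torsionBy ℤ (qbarCurve E).Point ((p ^ n : ℕ) : ℤ))) ?_
    · induction q using Submodule.Quotient.induction_on with
      | _ v => exact mem_tor_iff.mpr (pow_nsmul_ptOf hΔ n v)
    · exact fun a b h => hι (congrArg Subtype.val h)
  let act : GQ → V ⧸ K → V ⧸ K := fun σ =>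
    (tateRep p hΔ).levelAction (Ideal.span {(p : ℤ_[p]) ^ n}) σ
  obtain ⟨G⟩ := nonempty_functionModel_of_points hp hgood ι hι act (fun σ q => by
    induction q using Submodule.Quotient.induction_on with
    | _ v => exact (smul_ptOf hΔ n σ v).symm)
  exact G.exists_hopf

end

end FermatAgent.LocalP
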