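import Fermat.Agent.LocalP.Conditions.E1Torsion
import Mathlib.AlgebraicGeometry.EllipticCurve.Projective.Point
import Mathlib.Algebra.Algebra.Operations
import Mathlib.FieldTheory.IsAlgClosed.AlgebraicClosure

/-!
# A locally primitive addition law over a valuation ring

Projective chord addition is a bidegree `(2, 2)` law, primitive wherever the two reductions differ.
Composed with translations by `± S` for an auxiliary integral point `S` it becomes a bidegree
`(4, 4)` law which is primitive at any given pair of points, for a smooth reduction.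
-/

set_option autoImplicit false

namespace FermatAgent.LocalP.FlatModel

open WeierstrassCurve FermatAgent.Local
open scoped WeierstrassCurve.Projective

noncomputable section

local notation "Qb" => AlgebraicClosure ℚ

variable {A : ValuationSubring Qb} {W : WeierstrassCurve.Affine Qb}

local instance : DecidableEq (IsLocalRing.ResidueField A) := Classical.decEq _

/-- The standard projective representative of a point. -/
def pRep : W.Point → Fin 3 → Qb
  | .zero => ![0, 1, 0]
  | .some x y _ => ![x, y, 1]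

/-- An integral primitive vector. -/
def IsPrim (A : ValuationSubring Qb) (r : Fin 3 → Qb) : Prop :=
  (∀ i, r i ∈ A) ∧ ∃ i, A.valuation (r i) = 1

lemma nonsingular_pRep (P : W.Point) : W.toProjective.Nonsingular (pRep P) := by
  rcases P with _ | ⟨x, y, h⟩
  · exact Projective.nonsingular_zero
  · exact (Projective.nonsingular_some x y).2 h

lemma toAffine_pRep (P : W.Point) : Projective.Point.toAffine W.toProjective (pRep P) = P := by
  rcases P with _ | ⟨x, y, h⟩
  · exact Projective.Point.toAffine_zero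
  · exact Projective.Point.toAffine_some ((Projective.nonsingular_some x y).2 h)

lemma exists_smul_pRep {R : Fin 3 → Qb} (hR : W.toProjective.Nonsingular R) :
    ∃ c : Qb, R = c • pRep (Projective.Point.toAffine W.toProjective R) := by
  by_cases hz : R 2 = 0
  · refine ⟨R 1, ?_⟩
    rw [Projective.Point.toAffine_of_Z_eq_zero hz]
    have hx : R 0 = 0 := eq_zero_of_pow_eq_zero (n := 3) (by
      have := (Projective.equation_of_Z_eq_zero hz).1 hR.1
      exact this)
    funext i
    fin_cases i <;> simp [pRep, hx, hz]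
  · refine ⟨R 2, ?_⟩
    rw [Projective.Point.toAffine_of_Z_ne_zero hR hz]
    funext i
    fin_cases i <;> simp [pRep, mul_div_cancel₀ _ hz]

/-- Chord addition gives the sum up to a scalar, which may vanish. -/
lemma addXYZ_eq_smul_pRep {r r' : Fin 3 → Qb} (hr : W.toProjective.Nonsingular r)
    (hr' : W.toProjective.Nonsingular r') :
    ∃ c : Qb, W.toProjective.addXYZ r r' = c • pRep
      (Projective.Point.toAffine W.toProjective r + Projective.Point.toAffine W.toProjective r') := by
  by_cases h : r ≈ r'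
  · refine ⟨0, ?_⟩
    obtain ⟨u, rfl⟩ := h
    have e := Projective.addXYZ_smul (W' := W.toProjective) r' r' (u : Qb) 1
    rw [one_smul, Projective.addXYZ_self] at e
    rw [zero_smul]
    refine e.trans ?_
    funext i
    fin_cases i <;> simp
  · rw [← Projective.add_of_not_equiv h, ← Projective.Point.toAffine_add hr hr']
    exact exists_smul_pRep (Projective.nonsingular_add hr hr')

/-- Chord addition of points given up to scalars. -/
lemma addXYZ_smul_pRep (c c' : Qb) (P P' : W.Point) :
    ∃ d : Qb, W.toProjective.addXYZ (c • pRep P) (c' • pRep P') = d • pRep (P + P') := by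
  obtain ⟨e, he⟩ := addXYZ_eq_smul_pRep (nonsingular_pRep P) (nonsingular_pRep P')
  rw [toAffine_pRep, toAffine_pRep] at he
  exact ⟨(c * c') ^ 2 * e, by rw [Projective.addXYZ_smul, he, smul_smul]⟩

/-! ### Membership -/

section Mem

variable {N : Type*}

/-- Bihomogeneous expressions in two families of functions. -/
def IsBiform (U V : Submodule A (N → Qb)) (a b : ℕ) (f : N → Qb) : Prop := f ∈ U ^ a * V ^ b

variable {U V : Submodule A (N → Qb)} {a b c d e h : ℕ} {f g : N → Qb}

lemma IsBiform.add (hf : IsBiform U V a b f) (hg : IsBiform U V a b g) :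
    IsBiform U V a b (fun z => f z + g z) :=
  (U ^ a * V ^ b).add_mem hf hg

lemma IsBiform.sub (hf : IsBiform U V a b f) (hg : IsBiform U V a b g) :
    IsBiform U V a b (fun z => f z - g z) :=
  (U ^ a * V ^ b).sub_mem hf hg

lemma IsBiform.neg (hf : IsBiform U V a b f) : IsBiform U V a b (fun z => -f z) :=
  (U ^ a * V ^ b).neg_mem hf

lemma IsBiform.mul (hf : IsBiform U V a b f) (hg : IsBiform U V c d g) (h1 : a + c = e)
    (h2 : b + d = h) : IsBiform U V e h (fun z => f z * g z) := by
  subst h1 h2
  have := Submodule.mul_mem_mul hf hg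
  show (fun z => f z * g z) ∈ U ^ (a + c) * V ^ (b + d)
  rwa [pow_add, pow_add, mul_mul_mul_comm]

lemma IsBiform.pow (hf : IsBiform U V a b f) (n : ℕ) (h1 : a * n = e) (h2 : b * n = h) :
    IsBiform U V e h (fun z => f z ^ n) := by
  subst h1 h2
  have := Submodule.pow_mem_pow _ hf n
  show (f ^ n : N → Qb) ∈ U ^ (a * n) * V ^ (b * n)
  rwa [pow_mul, pow_mul, ← mul_pow]

lemma IsBiform.const {x : Qb} (hx : x ∈ A) : IsBiform U V 0 0 (fun _ : N => x) := by
  show (fun _ => x) ∈ U ^ 0 * V ^ 0
  rw [pow_zero, pow_zero, mul_one]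
  exact Submodule.algebraMap_mem (R := A) (A := N → Qb) ⟨x, hx⟩

lemma IsBiform.left (hf : f ∈ U) : IsBiform U V 1 0 f := by
  show f ∈ U ^ 1 * V ^ 0
  rwa [pow_one, pow_zero, mul_one]

lemma IsBiform.right (hf : f ∈ V) : IsBiform U V 0 1 f := by
  show f ∈ U ^ 0 * V ^ 1
  rwa [pow_one, pow_zero, one_mul]

/-- Chord addition is bihomogeneous of bidegree `(2, 2)`. -/
theorem addXYZ_mem (hW : IntCoeffs A W) {f g : N → Fin 3 → Qb}
    (hf : ∀ i, (fun z => f z i) ∈ U) (hg : ∀ i, (fun z => g z i) ∈ V) (i : Fin 3) :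
    (fun z => W.toProjective.addXYZ (f z) (g z) i) ∈ U ^ 2 * V ^ 2 := by
  have f0 : IsBiform U V 1 0 (fun z => f z 0) := .left (hf 0)
  have f1 : IsBiform U V 1 0 (fun z => f z 1) := .left (hf 1)
  have f2 : IsBiform U V 1 0 (fun z => f z 2) := .left (hf 2)
  have g0 : IsBiform U V 0 1 (fun z => g z 0) := .right (hg 0)
  have g1 : IsBiform U V 0 1 (fun z => g z 1) := .right (hg 1)
  have g2 : IsBiform U V 0 1 (fun z => g z 2) := .right (hg 2)
  have hn : ∀ n : ℕ, IsBiform U V 0 0 (fun _ : N => (n : Qb)) := fun n => .const (natCast_mem A n)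
  have c2 : IsBiform U V 0 0 (fun _ : N => (2 : Qb)) := by simpa using hn 2
  have c3 : IsBiform U V 0 0 (fun _ : N => (3 : Qb)) := by simpa using hn 3
  have a1 : IsBiform U V 0 0 (fun _ : N => W.a₁) := .const hW.a₁
  have a2 : IsBiform U V 0 0 (fun _ : N => W.a₂) := .const hW.a₂
  have a3 : IsBiform U V 0 0 (fun _ : N => W.a₃) := .const hW.a₃
  have a4 : IsBiform U V 0 0 (fun _ : N => W.a₄) := .const hW.a₄
  have a6 : IsBiform U V 0 0 (fun _ : N => W.a₆) := .const hW.a₆
  show IsBiform U V 2 2 _
  fin_cases i <;>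
    simp only [Projective.addXYZ, Projective.addX, Projective.addY, Projective.negY,
      Projective.negAddY, Projective.addZ, Fin.isValue, Fin.zero_eta, Fin.mk_one, Fin.reduceFinMk,
      Matrix.cons_val_zero, Matrix.cons_val_one, Matrix.cons_val] <;>
    repeat' with_reducible first
      | exact f0 | exact f1 | exact f2 | exact g0 | exact g1 | exact g2 | exact c2 | exact c3
      | exact a1 | exact a2 | exact a3 | exact a4 | exact a6
      | apply IsBiform.add | apply IsBiform.sub | apply IsBiform.neg
      | apply IsBiform.mul | apply IsBiform.pow | rfl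

end Mem

/-! ### Reduction -/

section Reduction

variable (hW : IntCoeffs A W)

/-- Reduction of an integral vector. -/
abbrev redVec (r : Fin 3 → A) : Fin 3 → IsLocalRing.ResidueField A := IsLocalRing.residue A ∘ r

/-- The integral vector of an element of `A³`. -/
abbrev coeVec (r : Fin 3 → A) : Fin 3 → Qb := A.subtype ∘ r

lemma coeVec_addXYZ (r r' : Fin 3 → A) :
    coeVec ((intModel hW).toProjective.addXYZ r r') =
      W.toProjective.addXYZ (coeVec r) (coeVec r') :=
  (Projective.map_addXYZ (W' := (intModel hW).toProjective) (f := A.subtype) r r').symm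

lemma redVec_addXYZ (r r' : Fin 3 → A) :
    redVec ((intModel hW).toProjective.addXYZ r r') =
      (redCurve hW).toProjective.addXYZ (redVec r) (redVec r') :=
  (Projective.map_addXYZ (W' := (intModel hW).toProjective) (f := IsLocalRing.residue A) r r').symm

/-- The point of the reduction under an integral vector. -/
abbrev redPt (r : Fin 3 → A) : (redCurve hW).Point :=
  Projective.Point.toAffine (redCurve hW).toProjective (redVec r)

/-- Vectors with different reductions: chord addition reduces to the sum. -/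
lemma red_addXYZ {r r' : Fin 3 → A} (hr : (redCurve hW).toProjective.Nonsingular (redVec r))
    (hr' : (redCurve hW).toProjective.Nonsingular (redVec r'))
    (hne : redPt hW r ≠ redPt hW r') :
    (redCurve hW).toProjective.Nonsingular (redVec ((intModel hW).toProjective.addXYZ r r')) ∧
      redPt hW ((intModel hW).toProjective.addXYZ r r') = redPt hW r + redPt hW r' := by
  have hn : ¬ redVec r ≈ redVec r' := fun h => hne (Projective.Point.toAffine_of_equiv h)
  simp only [redPt, redVec_addXYZ, ← Projective.add_of_not_equiv hn]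
  exact ⟨Projective.nonsingular_add hr hr', Projective.Point.toAffine_add hr hr'⟩

lemma isPrim_coeVec {r : Fin 3 → A} (hr : (redCurve hW).toProjective.Nonsingular (redVec r)) :
    IsPrim A (coeVec r) := by
  refine ⟨fun i => (r i).2, ?_⟩
  by_contra! hall
  have h0 : redVec r = 0 := funext fun i => by
    show IsLocalRing.residue A (r i) = 0
    rw [IsLocalRing.residue_eq_zero_iff, ValuationSubring.valuation_lt_one_iff]
    exact lt_of_le_of_ne (val_le_one_of_mem (r i).2) (hall i)
  rw [h0] at hr
  have := (Projective.nonsingular_of_Z_eq_zero (W' := (redCurve hW).toProjective)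
    (P := (0 : Fin 3 → IsLocalRing.ResidueField A)) rfl).1 hr
  simp at this

variable (hΔ : A.valuation W.Δ = 1)
include hΔ

lemma redCurve_Δ_ne_zero : (redCurve hW).Δ ≠ 0 := by
  show ((intModel hW).map (IsLocalRing.residue A)).Δ ≠ 0
  rw [WeierstrassCurve.map_Δ, Ne, IsLocalRing.residue_eq_zero_iff,
    ValuationSubring.valuation_lt_one_iff,
    show (((intModel hW).Δ : A) : Qb) = W.Δ from ((intModel hW).map_Δ A.subtype).symm, hΔ]
  exact lt_irrefl _

lemma redCurve_nonsingular {x y : A} (h : W.Equation (x : Qb) (y : Qb)) :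
    (redCurve hW).Nonsingular (IsLocalRing.residue A x) (IsLocalRing.residue A y) := by
  refine (Affine.equation_iff_nonsingular_of_Δ_ne_zero (redCurve_Δ_ne_zero hW hΔ)).1 ?_
  have h' : (intModel hW).toAffine.Equation x y :=
    ((intModel hW).toAffine.map_equation (f := A.subtype) Subtype.val_injective x y).1 h
  exact h'.map _

/-- Every point has a primitive representative, reducing to a point. -/
theorem exists_prim (P : W.Point) : ∃ (u : Qb) (r : Fin 3 → A), u ≠ 0 ∧
    coeVec r = u • pRep P ∧ (redCurve hW).toProjective.Nonsingular (redVec r) := by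
  rcases P with _ | ⟨x, y, h⟩
  · refine ⟨1, ![0, 1, 0], one_ne_zero, ?_, ?_⟩
    · funext i; fin_cases i <;> simp [pRep]
    · have e : redVec (![0, 1, 0] : Fin 3 → A) = ![0, 1, 0] := by
        funext i; fin_cases i <;> simp
      rw [e]; exact Projective.nonsingular_zero
  by_cases hx : x ∈ A
  · have hy := y_mem_of_x_mem hW h.1 hx
    refine ⟨1, ![⟨x, hx⟩, ⟨y, hy⟩, 1], one_ne_zero, ?_, ?_⟩
    · funext i; fin_cases i <;> simp [pRep]
    · have e : redVec (![⟨x, hx⟩, ⟨y, hy⟩, 1] : Fin 3 → A) =
          ![IsLocalRing.residue A ⟨x, hx⟩, IsLocalRing.residue A ⟨y, hy⟩, 1] := by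
        funext i; fin_cases i <;> simp
      rw [e, Projective.nonsingular_some]
      exact redCurve_nonsingular hW hΔ h.1
  · have h1 := one_lt_val_of_not_mem hx
    have hxy : A.valuation x < A.valuation y := by
      by_contra! hle
      have hx2 : A.valuation x ^ 2 < A.valuation x ^ 3 := pow_lt_pow_right₀ h1 (by norm_num)
      have he := (equation_iff_zero W x y).1 h.1
      have hlt : A.valuation (x ^ 3) < A.valuation x ^ 3 := by
        rw [show x ^ 3 = y * y + W.a₁ * x * y + W.a₃ * y -
          (W.a₂ * x ^ 2 + W.a₄ * x + W.a₆) by linear_combination -he]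
        have hxle : A.valuation x ≤ A.valuation x ^ 2 := le_self_pow₀ h1.le two_ne_zero
        refine A.valuation.map_sub_lt ?_ ?_
        · refine A.valuation.map_add_lt (A.valuation.map_add_lt ?_ ?_) ?_
          · rw [map_mul]; exact ((mul_le_mul' hle hle).trans (pow_two _).ge).trans_lt hx2
          · rw [map_mul, map_mul]
            exact ((mul_le_mul' (mul_le_of_le_one_left' (val_le_one_of_mem hW.a₁)) hle).trans
              (pow_two _).ge).trans_lt hx2
          · rw [map_mul]
            exact ((mul_le_of_le_one_left' (val_le_one_of_mem hW.a₃)).trans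
              (hle.trans hxle)).trans_lt hx2
        · refine A.valuation.map_add_lt (A.valuation.map_add_lt ?_ ?_) ?_
          · rw [map_mul, map_pow]
            exact (mul_le_of_le_one_left' (val_le_one_of_mem hW.a₂)).trans_lt hx2
          · rw [map_mul]
            exact ((mul_le_of_le_one_left' (val_le_one_of_mem hW.a₄)).trans hxle).trans_lt hx2
          · exact ((val_le_one_of_mem hW.a₆).trans (one_le_pow₀ h1.le)).trans_lt hx2
      rw [map_pow] at hlt
      exact lt_irrefl _ hlt
    have hy0 : y ≠ 0 := fun e => by rw [e, map_zero] at hxy; exact not_lt_zero hxy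
    have hq : A.valuation (x / y) < 1 := by
      rw [map_div₀, div_lt_one₀ (lt_of_le_of_lt zero_le hxy)]; exact hxy
    have hiy : A.valuation y⁻¹ < 1 := by
      rw [map_inv₀]; exact inv_lt_one_of_one_lt₀ (h1.trans hxy)
    refine ⟨y⁻¹, ![⟨x / y, mem_of_val_le_one hq.le⟩, 1, ⟨y⁻¹, mem_of_val_le_one hiy.le⟩],
      inv_ne_zero hy0, ?_, ?_⟩
    · funext i; fin_cases i <;> simp [pRep, div_eq_inv_mul, inv_mul_cancel₀ hy0]
    · have e : redVec (![⟨x / y, mem_of_val_le_one hq.le⟩, 1,
          ⟨y⁻¹, mem_of_val_le_one hiy.le⟩] : Fin 3 → A) = ![0, 1, 0] := by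
        funext i
        have r0 : IsLocalRing.residue A (⟨x / y, mem_of_val_le_one hq.le⟩ : A) = 0 := by
          rw [IsLocalRing.residue_eq_zero_iff, ValuationSubring.valuation_lt_one_iff]; exact hq
        have r2 : IsLocalRing.residue A (⟨y⁻¹, mem_of_val_le_one hiy.le⟩ : A) = 0 := by
          rw [IsLocalRing.residue_eq_zero_iff, ValuationSubring.valuation_lt_one_iff]; exact hiy
        fin_cases i <;> simp [r0, r2]
      rw [e]; exact Projective.nonsingular_zero

omit hΔ in
lemma infinite_residueField : Infinite (IsLocalRing.ResidueField A) := by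
  classical
  by_contra hfin
  rw [not_infinite_iff_finite] at hfin
  cases nonempty_fintype (IsLocalRing.ResidueField A)
  set q := Fintype.card (IsLocalRing.ResidueField A) with hq
  have hq1 : 1 < q := Fintype.one_lt_card
  obtain ⟨a, ha⟩ := IsAlgClosed.exists_root
    (Polynomial.X ^ q - Polynomial.X + Polynomial.C (1 : Qb)) (by
      rw [sub_add, Polynomial.degree_sub_eq_left_of_degree_lt] <;> simp
      · omega
      · refine lt_of_le_of_lt (Polynomial.degree_sub_le _ _) ?_
        rw [max_lt_iff]
        constructor <;> simp [Polynomial.degree_X, Polynomial.degree_one] <;> omega)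
  simp only [Polynomial.IsRoot, Polynomial.eval_add, Polynomial.eval_sub, Polynomial.eval_pow,
    Polynomial.eval_X, Polynomial.eval_C] at ha
  have haA : a ∈ A := by
    by_contra hna
    have h1 := one_lt_val_of_not_mem hna
    have h2 : A.valuation (a - 1) < A.valuation a ^ q := by
      refine lt_of_le_of_lt ((A.valuation.map_sub _ _).trans (max_le le_rfl ?_))
        (lt_self_pow₀ h1 hq1)
      rw [map_one]; exact h1.le
    rw [show a - 1 = a ^ q by linear_combination -ha, map_pow] at h2
    exact lt_irrefl _ h2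
  have h := congrArg (IsLocalRing.residue A)
    (show (⟨a, haA⟩ : A) ^ q - ⟨a, haA⟩ + 1 = 0 from Subtype.ext ha)
  rw [map_add, map_sub, map_pow, map_one, map_zero, hq, FiniteField.pow_card, sub_self,
    zero_add] at h
  exact one_ne_zero h

/-- An integral point whose reduction avoids finitely many given points. -/
theorem exists_avoid (T : Finset (redCurve hW).Point) :
    ∃ (S : W.Point) (s : Fin 3 → A), coeVec s = pRep S ∧
      (redCurve hW).toProjective.Nonsingular (redVec s) ∧ redPt hW s ∉ T := by
  classical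
  have := infinite_residueField (A := A)
  obtain ⟨ξ, hξ⟩ := Infinite.exists_notMem_finset (T.image FermatAgent.LocalP.xCoord)
  obtain ⟨⟨x, hx⟩, rfl⟩ := IsLocalRing.residue_surjective ξ
  have hΔ0 : W.Δ ≠ 0 := fun h => by rw [h, map_zero] at hΔ; exact zero_ne_one hΔ
  obtain ⟨y, hy⟩ := exists_point_over W hΔ0 x
  have hyA := y_mem_of_x_mem hW hy.1 hx
  refine ⟨.some x y hy, ![⟨x, hx⟩, ⟨y, hyA⟩, 1], ?_, ?_⟩
  · funext i; fin_cases i <;> simp [pRep]
  have e : redVec (![⟨x, hx⟩, ⟨y, hyA⟩, 1] : Fin 3 → A) =
      ![IsLocalRing.residue A ⟨x, hx⟩, IsLocalRing.residue A ⟨y, hyA⟩, 1] := by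
    funext i; fin_cases i <;> simp
  have hns := redCurve_nonsingular hW hΔ (x := ⟨x, hx⟩) (y := ⟨y, hyA⟩) hy.1
  refine ⟨e ▸ (Projective.nonsingular_some _ _).2 hns, fun hT => hξ ?_⟩
  refine Finset.mem_image.2 ⟨_, hT, ?_⟩
  simp only [redPt, e, Projective.Point.toAffine_some ((Projective.nonsingular_some
    (W' := (redCurve hW).toProjective) _ _).2 hns)]
  rfl

lemma finite_two_nsmul_eq_zero : {R : (redCurve hW).Point | 2 • R = 0}.Finite := by
  classical
  have hΔr := redCurve_Δ_ne_zero hW hΔ
  have hpoly : (redCurve hW).ΨSq ((2 : ℕ) : ℤ) ≠ 0 := by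
    intro h
    rw [Nat.cast_ofNat, WeierstrassCurve.ΨSq_two] at h
    have h4 := congrArg (fun f => f.coeff 3) h
    have h2 := congrArg (fun f => f.coeff 2) h
    have h0 := congrArg (fun f => f.coeff 0) h
    simp [WeierstrassCurve.Ψ₂Sq, Polynomial.coeff_X, Polynomial.coeff_X_pow] at h4 h2 h0
    refine hΔr ?_
    have h2' : (2 : IsLocalRing.ResidueField A) = 0 := by
      have : (2 : IsLocalRing.ResidueField A) * 2 = 0 := by linear_combination h4
      exact mul_self_eq_zero.1 this
    rw [WeierstrassCurve.Δ]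
    linear_combination (-(redCurve hW).b₂ * (redCurve hW).b₈ + 9 * (redCurve hW).b₄ *
      (redCurve hW).b₆) * h2 - 4 * (redCurve hW).b₄ ^ 3 * h2' - 27 * (redCurve hW).b₆ * h0
  refine Set.Finite.of_finite_image (f := fun R => R) ?_ Function.injective_id.injOn
  refine Set.Finite.subset (Set.Finite.union (Set.finite_singleton 0)
    (Set.Finite.biUnion ((redCurve hW).ΨSq ((2 : ℕ) : ℤ)).roots.toFinset.finite_toSet
      (t := fun ξ => {R : (redCurve hW).Point | R ≠ 0 ∧ xCoord R = ξ}) fun ξ _ => ?_)) ?_
  · rcases Set.eq_empty_or_nonempty {R : (redCurve hW).Point | R ≠ 0 ∧ xCoord R = ξ} with h | ⟨R₀, hR₀⟩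
    · rw [h]; exact Set.finite_empty
    · refine ((Set.finite_singleton (-R₀)).insert R₀).subset fun R hR => ?_
      by_contra hc
      simp only [Set.mem_insert_iff, Set.mem_singleton_iff, not_or] at hc
      exact xCoord_ne_of_ne_neg hR.1 hR₀.1 hc.1 hc.2 (hR.2.trans hR₀.2.symm)
  · rintro R ⟨R', hR, rfl⟩
    rcases eq_or_ne R' 0 with h0 | h0
    · exact Or.inl h0
    · obtain ⟨y, hy, e⟩ := exists_eq_some h0
      refine Or.inr (Set.mem_biUnion (x := xCoord R') ?_ ⟨h0, rfl⟩)
      rw [Set.mem_ofPred_eq, e] at hR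
      rw [Finset.mem_coe, Multiset.mem_toFinset, Polynomial.mem_roots hpoly, Polynomial.IsRoot]
      exact (nsmul_eq_zero_iff hy 2).1 hR

/-- For two integral vectors: an integral point separating them after translation. -/
theorem exists_translation (a b : (redCurve hW).Point) :
    ∃ (S : W.Point) (s s' : Fin 3 → A), coeVec s = pRep S ∧ (∃ u : Qb, coeVec s' = u • pRep (-S)) ∧
      (redCurve hW).toProjective.Nonsingular (redVec s) ∧
      (redCurve hW).toProjective.Nonsingular (redVec s') ∧
      redPt hW s ≠ a ∧ redPt hW s' ≠ b ∧ a + redPt hW s ≠ b + redPt hW s' := by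
  classical
  have hfin : {R : (redCurve hW).Point | 2 • R = b - a}.Finite := by
    rcases Set.eq_empty_or_nonempty {R : (redCurve hW).Point | 2 • R = b - a} with h | ⟨R₀, hR₀⟩
    · rw [h]; exact Set.finite_empty
    · refine ((finite_two_nsmul_eq_zero hW hΔ).image (fun T => R₀ + T)).subset fun R hR =>
        ⟨R - R₀, ?_, add_sub_cancel _ _⟩
      rw [Set.mem_ofPred_eq] at hR hR₀ ⊢
      rw [nsmul_sub, hR, hR₀, sub_self]
  obtain ⟨S, s, hs, hns, hT⟩ := exists_avoid hW hΔ (insert a (insert (-b) hfin.toFinset))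
  simp only [Finset.mem_insert, Set.Finite.mem_toFinset, Set.mem_ofPred_eq, not_or] at hT
  obtain ⟨hT1, hT2, hT3⟩ := hT
  set s' := (intModel hW).toProjective.neg s
  have hred : redVec s' = (redCurve hW).toProjective.neg (redVec s) :=
    (Projective.map_neg (W' := (intModel hW).toProjective) (IsLocalRing.residue A) s).symm
  have hpt : redPt hW s' = -redPt hW s := by
    simp only [redPt, hred]
    exact Projective.Point.toAffine_neg hns
  refine ⟨S, s, s', hs, ?_, hns, hred ▸ Projective.nonsingular_neg hns, hT1, ?_, ?_⟩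
  · have e : coeVec s' = W.toProjective.neg (pRep S) := by
      rw [← hs]
      exact (Projective.map_neg (W' := (intModel hW).toProjective) A.subtype s).symm
    obtain ⟨c, hc⟩ := exists_smul_pRep (Projective.nonsingular_neg (nonsingular_pRep S))
    rw [Projective.Point.toAffine_neg (nonsingular_pRep S), toAffine_pRep] at hc
    exact ⟨c, e.trans hc⟩
  · rw [hpt]; exact fun h => hT2 (neg_eq_iff_eq_neg.1 h)
  · rw [hpt]; intro h
    refine hT3 ?_
    rw [two_nsmul, eq_sub_iff_add_eq]
    linear_combination (norm := abel_nf) h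

/-- A bidegree `(4, 4)` addition law, primitive at `z₀`. -/
theorem exists_law {N : Type*} (U V : Submodule A (N → Qb)) (f g : N → Fin 3 → Qb) (P Q : N → W.Point)
    (hf : ∀ i, (fun z => f z i) ∈ U) (hg : ∀ i, (fun z => g z i) ∈ V)
    (hfP : ∀ z, ∃ c : Qb, f z = c • pRep (P z)) (hgQ : ∀ z, ∃ c : Qb, g z = c • pRep (Q z))
    (z₀ : N) {r r' : Fin 3 → A} (hr : coeVec r = f z₀) (hr' : coeVec r' = g z₀)
    (hrn : (redCurve hW).toProjective.Nonsingular (redVec r))
    (hrn' : (redCurve hW).toProjective.Nonsingular (redVec r')) :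
    ∃ L : N → Fin 3 → Qb, (∀ i, (fun z => L z i) ∈ U ^ 4 * V ^ 4) ∧
      (∀ z, ∃ c : Qb, L z = c • pRep (P z + Q z)) ∧ IsPrim A (L z₀) := by
  obtain ⟨S, s, s', hs, ⟨u, hs'⟩, hsn, hsn', h1, h2, h3⟩ :=
    exists_translation hW hΔ (redPt hW r) (redPt hW r')
  refine ⟨fun z => W.toProjective.addXYZ (W.toProjective.addXYZ (f z) (coeVec s))
    (W.toProjective.addXYZ (g z) (coeVec s')), fun i => ?_, fun z => ?_, ?_⟩
  · have hconst : ∀ (t : Fin 3 → A) i, (fun _ : N => coeVec t i) ∈ (1 : Submodule A (N → Qb)) :=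
      fun t i => Submodule.algebraMap_mem (R := A) (A := N → Qb) (t i)
    have h := addXYZ_mem (U := U ^ 2 * 1 ^ 2) (V := V ^ 2 * 1 ^ 2) hW
      (fun i => addXYZ_mem (V := 1) hW hf (hconst s) i)
      (fun i => addXYZ_mem (V := 1) hW hg (hconst s') i) i
    rwa [one_pow, mul_one, mul_one, ← pow_mul, ← pow_mul] at h
  · obtain ⟨c, hc⟩ := hfP z
    obtain ⟨c', hc'⟩ := hgQ z
    obtain ⟨d, hd⟩ := addXYZ_smul_pRep c 1 (P z) S
    obtain ⟨d', hd'⟩ := addXYZ_smul_pRep c' u (Q z) (-S)
    obtain ⟨e, he⟩ := addXYZ_smul_pRep d d' (P z + S) (Q z + -S)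
    refine ⟨e, ?_⟩
    show W.toProjective.addXYZ (W.toProjective.addXYZ (f z) (coeVec s))
      (W.toProjective.addXYZ (g z) (coeVec s')) = _
    rw [one_smul] at hd
    rw [hc, hc', hs, hs', hd, hd', he, show P z + S + (Q z + -S) = P z + Q z by abel]
  · show IsPrim A (W.toProjective.addXYZ (W.toProjective.addXYZ (f z₀) (coeVec s))
      (W.toProjective.addXYZ (g z₀) (coeVec s')))
    rw [← hr, ← hr', ← coeVec_addXYZ hW, ← coeVec_addXYZ hW, ← coeVec_addXYZ hW]
    obtain ⟨n1, e1⟩ := red_addXYZ hW hrn hsn (Ne.symm h1)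
    obtain ⟨n2, e2⟩ := red_addXYZ hW hrn' hsn' (Ne.symm h2)
    exact isPrim_coeVec hW (red_addXYZ hW n1 n2 (by rw [e1, e2]; exact h3)).1

end Reduction

end

end FermatAgent.LocalP.FlatModel
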