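import Fermat.Agent.GalRep.Flat.Model
import Fermat.Agent.Local.Place
import Mathlib.Algebra.Polynomial.Splits
import Mathlib.RingTheory.Ideal.Maximal

/-!
# Recognising elements of algebras of equivariant functions at a single place

Membership in a module-finite `ℤ_(p)`-algebra of equivariant functions may be tested after
extending the coefficients to the valuation ring of one place over `p`, and there locally at each
point.
-/

set_option autoImplicit false

namespace FermatAgent.LocalP.FlatModel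

open FermatAgent.Local FermatAgent.GalRep.Flat

noncomputable section

local notation "Qb" => AlgebraicClosure ℚ
local notation "GQ" => AlgebraicClosure ℚ ≃ₐ[ℚ] AlgebraicClosure ℚ
local notation "Rp" => GaloisRep.ratLocalizedAt

variable {A : ValuationSubring Qb}

/-- An element of a subalgebra over a valuation ring is determined locally at the points. -/
theorem mem_of_local {N : Type*} [Finite N] (S : Subalgebra A (N → Qb))
    (_hint : ∀ f ∈ S, ∀ z, f z ∈ A) (g : N → Qb)
    (h : ∀ z, ∃ s ∈ S, A.valuation (s z) = 1 ∧ s * g ∈ S) : g ∈ S := by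
  classical
  cases nonempty_fintype N
  let J : Ideal S :=
    { carrier := {s | (s : N → Qb) * g ∈ S}
      add_mem' := fun {a b} ha hb => by
        show ((a + b : S) : N → Qb) * g ∈ S
        rw [Subalgebra.coe_add, add_mul]; exact S.add_mem ha hb
      zero_mem' := by
        show ((0 : S) : N → Qb) * g ∈ S
        rw [ZeroMemClass.coe_zero, zero_mul]; exact S.zero_mem
      smul_mem' := fun c a ha => by
        show ((c * a : S) : N → Qb) * g ∈ S
        rw [Subalgebra.coe_mul, mul_assoc]; exact S.mul_mem c.2 ha }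
  by_contra hg
  have hJ : J ≠ ⊤ := fun e => hg (by
    have h1 : ((1 : S) : N → Qb) * g ∈ S := (e ▸ Submodule.mem_top : (1 : S) ∈ J)
    rwa [OneMemClass.coe_one, one_mul] at h1)
  obtain ⟨𝔪, hm, hJm⟩ := J.exists_le_maximal hJ
  obtain ⟨z, hz⟩ : ∃ z, ∀ t : S, (t : N → Qb) z = 0 → t ∈ 𝔪 := by
    by_contra! hc
    choose t ht0 htm using hc
    obtain ⟨z, -, hz⟩ := hm.isPrime.prod_mem_iff.1 (show (∏ z : N, t z) ∈ 𝔪 from by
      have : (∏ z : N, t z) = 0 := Subtype.ext (funext fun w => by
        rw [SubmonoidClass.coe_finsetProd, Finset.prod_apply]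
        exact Finset.prod_eq_zero (Finset.mem_univ w) (ht0 w))
      rw [this]; exact 𝔪.zero_mem)
    exact htm z hz
  obtain ⟨s, hs, hsv, hsg⟩ := h z
  let w : A := ⟨(s z)⁻¹, mem_of_val_le_one (by rw [map_inv₀, hsv, inv_one])⟩
  have hs0 : s z ≠ 0 := fun e => by rw [e, map_zero] at hsv; exact zero_ne_one hsv
  have hsm : (⟨s, hs⟩ : S) ∈ 𝔪 := hJm hsg
  refine hm.ne_top (Ideal.eq_top_iff_one _ |>.2 ?_)
  have hk : algebraMap A S w * ⟨s, hs⟩ - 1 ∈ 𝔪 := hz _ (by
    show (s z)⁻¹ * s z - 1 = 0
    rw [inv_mul_cancel₀ hs0, sub_self])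
  have := 𝔪.sub_mem (𝔪.mul_mem_left (algebraMap A S w) hsm) hk
  rwa [sub_sub_cancel] at this

variable {p : ℕ}

/-- A rational number integral at a place over `p` lies in `ℤ_(p)`. -/
theorem mem_ratLocalized_of_mem (hp : p.Prime) (hA : A.LiesOverPrime p) {q : ℚ}
    (h : (q : Qb) ∈ A) : q ∈ GaloisRep.ratLocalizedAt p := by
  refine Nat.Coprime.symm (hp.coprime_iff_not_dvd.2 fun hd => ?_)
  have hn : ¬ (p : ℤ) ∣ q.num := fun hn => hp.not_dvd_one
    (q.reduced.gcd_eq_one ▸ Nat.dvd_gcd (Int.natCast_dvd.mp hn) hd)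
  have h1 := val_intCast_eq_one hp hA hn
  have h2 : A.valuation ((q.den : ℤ) : Qb) < 1 :=
    (val_intCast_lt_one_iff hp hA _).2 (Int.natCast_dvd_natCast.2 hd)
  have e : (q : Qb) * ((q.den : ℤ) : Qb) = (q.num : Qb) := by
    have := congrArg (fun r : ℚ => (r : Qb)) (Rat.mul_den_eq_num q)
    push_cast at this
    rw [Int.cast_natCast]
    exact this
  rw [← e, map_mul] at h1
  exact (val_mul_lt_one_of_le_of_lt (val_le_one_of_mem h) h2).ne h1

lemma ratLocalized_mem (hp : p.Prime) (hA : A.LiesOverPrime p) (r : Rp p) :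
    ((r : ℚ) : Qb) ∈ A := by
  rw [Rat.cast_def, div_eq_mul_inv]
  refine mul_mem (intCast_mem A _) (mem_of_val_le_one ?_)
  have hd : ¬ (p : ℤ) ∣ ((r : ℚ).den : ℤ) := fun hd =>
    hp.coprime_iff_not_dvd.1 (Nat.Coprime.symm r.2) (Int.natCast_dvd_natCast.1 hd)
  rw [map_inv₀, ← Int.cast_natCast, val_intCast_eq_one hp hA hd, inv_one]

variable {N : Type} {act : GQ → N → N}

/-- An algebra of equivariant functions over `ℤ_(p)`: descent from the valuation ring of a place. -/
theorem mem_of_mem_adjoin [Finite N] (hp : p.Prime) (hA : A.LiesOverPrime p)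
    (hsurj : ∀ σ, Function.Surjective (act σ)) (B : Subalgebra (Rp p) (N → Qb))
    [Module.Finite (Rp p) B] (heq : ∀ f ∈ B, IsEquivariant act f) {g : N → Qb}
    (hgeq : IsEquivariant act g)
    (hg : g ∈ Submodule.span A (B : Set (N → Qb))) : g ∈ B := by
  classical
  have : Module.IsTorsionFree (Rp p) B := .of_smul_eq_zero fun r f h => by
    refine or_iff_not_imp_left.mpr fun hr => Subtype.ext (funext fun x => ?_)
    have h1 : r • (f : N → Qb) x = 0 := congrFun (congrArg Subtype.val h) x
    rw [smul_qbar_eq, mul_eq_zero, Rat.cast_eq_zero] at h1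
    exact h1.resolve_left fun h2 => hr (Subtype.ext h2)
  have : Module.Free (Rp p) B := Module.free_of_finite_type_torsion_free'
  let b := Module.Free.chooseBasis (Rp p) B
  have hli : LinearIndependent Qb fun i => (b i : N → Qb) :=
    linearIndependent_qbar (p := p) hsurj (fun i => heq _ (b i).2)
      (b.linearIndependent.map' B.val.toLinearMap (LinearMap.ker_eq_bot.mpr Subtype.val_injective))
  have hspan : g ∈ Submodule.span A (Set.range fun i => (b i : N → Qb)) := by
    refine Submodule.span_le.2 ?_ hg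
    intro f hf
    have hsum := congrArg Subtype.val (b.sum_repr ⟨f, hf⟩)
    rw [AddSubmonoidClass.coe_finsetSum] at hsum
    rw [SetLike.mem_coe, ← show _ = f from hsum]
    refine Submodule.sum_mem _ fun i _ => ?_
    let a : A := ⟨((b.repr ⟨f, hf⟩ i : ℚ) : Qb), ratLocalized_mem hp hA _⟩
    have e : ((b.repr ⟨f, hf⟩ i • b i : B) : N → Qb) = a • (b i : N → Qb) := by
      funext z
      exact smul_qbar_eq _ _
    rw [e]
    exact Submodule.smul_mem _ _ (Submodule.subset_span ⟨i, rfl⟩)
  obtain ⟨c, hc⟩ := (Submodule.mem_span_range_iff_exists_fun A).1 hspan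
  have hc' : ∀ z, ∑ i, (c i : Qb) * (b i : N → Qb) z = g z := fun z => by
    rw [← congrFun hc z, Finset.sum_apply]
    rfl
  have hfix : ∀ (σ : GQ) i, σ (c i : Qb) = (c i : Qb) := by
    intro σ i
    refine sub_eq_zero.1 (Fintype.linearIndependent_iff.1 hli (fun j => σ (c j : Qb) - c j) ?_ i)
    funext x
    obtain ⟨z, rfl⟩ := hsurj σ x
    rw [Finset.sum_apply, Pi.zero_apply]
    simp only [Pi.smul_apply, smul_eq_mul, sub_mul, Finset.sum_sub_distrib]
    rw [sub_eq_zero, hc', hgeq, ← hc', map_sum]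
    exact Finset.sum_congr rfl fun j _ => by rw [map_mul, heq _ (b j).2]
  choose q hq using fun i => mem_range_rat_of_fixed fun σ => hfix σ i
  have hg' : g = ∑ i, (⟨q i, mem_ratLocalized_of_mem hp hA (hq i ▸ (c i).2)⟩ : Rp p) •
      (b i : N → Qb) := by
    funext z
    rw [← hc', Finset.sum_apply]
    exact Finset.sum_congr rfl fun i _ => by
      rw [Pi.smul_apply, smul_qbar_eq, hq]
  rw [hg']
  exact B.sum_mem fun i _ => B.smul_mem (b i).2 _

/-- A number all whose conjugates are integral at a place over `p` is integral over `ℤ_(p)`. -/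
theorem isIntegral_of_forall_mem (hp : p.Prime) (hA : A.LiesOverPrime p) {x : Qb}
    (h : ∀ σ : GQ, σ x ∈ A) : IsIntegral (Rp p) x := by
  classical
  have : IsAlgClosure ℚ Qb := AlgebraicClosure.instIsAlgClosure ℚ
  have hx : IsIntegral ℚ x := (AlgebraicClosure.isAlgebraic ℚ).isAlgebraic x |>.isIntegral
  set f := minpoly ℚ x with hf
  have hroots : ∀ r ∈ (f.map (algebraMap ℚ Qb)).roots, r ∈ A := by
    intro r hr
    rw [Polynomial.mem_roots ((Polynomial.map_ne_zero_iff (algebraMap ℚ Qb).injective).2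
      (minpoly.ne_zero hx)), Polynomial.IsRoot, Polynomial.eval_map, ← Polynomial.aeval_def] at hr
    obtain ⟨σ, hσ⟩ := minpoly.exists_algEquiv_of_root' (AlgebraicClosure.isAlgebraic ℚ |>.isAlgebraic x) hr
    exact hσ ▸ h σ
  have hcoef : ∀ i, f.coeff i ∈ GaloisRep.ratLocalizedAt p := by
    intro i
    refine mem_ratLocalized_of_mem hp hA ?_
    rw [← eq_ratCast (algebraMap ℚ Qb), ← Polynomial.coeff_map,
      (IsAlgClosed.splits (f.map (algebraMap ℚ Qb))).eq_prod_roots_of_monic
        ((minpoly.monic hx).map _)]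
    let s : Multiset A := (f.map (algebraMap ℚ Qb)).roots.attach.map fun r => ⟨r.1, hroots r.1 r.2⟩
    have e : ((f.map (algebraMap ℚ Qb)).roots.map fun r => Polynomial.X - Polynomial.C r).prod =
        Polynomial.map A.subtype ((s.map fun r => Polynomial.X - Polynomial.C r).prod) := by
      rw [Polynomial.map_multiset_prod, Multiset.map_map]
      conv_lhs => rw [← Multiset.attach_map_val (f.map (algebraMap ℚ Qb)).roots]
      simp only [s, Multiset.map_map, Function.comp_def, Polynomial.map_sub, Polynomial.map_X,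
        Polynomial.map_C]
      rfl
    rw [e, Polynomial.coeff_map]
    exact Subtype.coe_prop _
  have hsub : (↑f.coeffs : Set ℚ) ⊆ (GaloisRep.ratLocalizedAt p : Set ℚ) := by
    intro q hq
    obtain ⟨i, -, rfl⟩ := Polynomial.mem_coeffs_iff.1 hq
    exact hcoef i
  refine ⟨f.toSubring (GaloisRep.ratLocalizedAt p) hsub,
    (Polynomial.monic_toSubring f _ hsub).2 (minpoly.monic hx), ?_⟩
  have e : (algebraMap (Rp p) Qb) = (algebraMap ℚ Qb).comp (GaloisRep.ratLocalizedAt p).subtype :=
    rfl
  rw [e, ← Polynomial.eval₂_map, Polynomial.map_toSubring, ← Polynomial.aeval_def]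
  exact minpoly.aeval ℚ x

end

end FermatAgent.LocalP.FlatModel
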