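import Fermat.Agent.LocalP.Conditions.FlatCriterion
import Fermat.Agent.LocalP.Conditions.FlatAddition
import Fermat.Agent.Local.GoodReduction
import Fermat.Agent.Hasse.Galois

/-!
# A finite flat model of torsion points of a curve with good reduction

For a finite Galois-stable group of points of a curve with good reduction at `p` the functions
`(monomial of degree 2d)/G`, `G = Y²ᵈ - YᵈZᵈ + Z²ᵈ`, generate a function model over `ℤ_(p)`: `G` is a
unit at every reduction, and the addition law is tested at a single place over `p`.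
-/

set_option autoImplicit false

open scoped WeierstrassCurve.Affine TensorProduct

namespace FermatAgent.LocalP.FlatModel

open WeierstrassCurve FermatAgent.Local FermatAgent.GalRep.Flat

noncomputable section

local notation "Qb" => AlgebraicClosure ℚ
local notation "GQ" => AlgebraicClosure ℚ ≃ₐ[ℚ] AlgebraicClosure ℚ
local notation "Rp" => GaloisRep.ratLocalizedAt

variable {A : ValuationSubring Qb} {E : WeierstrassCurve ℤ} {p : ℕ}

/-- The denominator form `Y²ᵈ - YᵈZᵈ + Z²ᵈ`. -/
def gForm (d : ℕ) (r : Fin 3 → Qb) : Qb := (r 1 ^ d) ^ 2 - r 1 ^ d * r 2 ^ d + (r 2 ^ d) ^ 2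

lemma gForm_smul (d : ℕ) (c : Qb) (r : Fin 3 → Qb) :
    gForm d (c • r) = c ^ (d * 2) * gForm d r := by
  simp only [gForm, Pi.smul_apply, smul_eq_mul, mul_pow, pow_mul]
  ring

lemma gForm_map (d : ℕ) (σ : Qb →+* Qb) (r : Fin 3 → Qb) : gForm d (σ ∘ r) = σ (gForm d r) := by
  simp [gForm]

lemma pRep_smul (σ : GQ) (P : (qbarCurve E).Point) : pRep (σ • P) = σ ∘ pRep P := by
  rw [galois_smul_eq_conjPoint]
  rcases P with _ | ⟨x, y, h⟩
  · show (![0, 1, 0] : Fin 3 → Qb) = _
    funext i; fin_cases i <;> simp [pRep]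
  · show (![(σ : Qb →+* Qb) x, (σ : Qb →+* Qb) y, 1] : Fin 3 → Qb) = _
    funext i; fin_cases i <;> simp [pRep]

/-- Residues have finite order. -/
lemma exists_pow_eq (hp : p.Prime) (hA : A.LiesOverPrime p) (c : IsLocalRing.ResidueField A) :
    ∃ d, 0 < d ∧ (c ^ d = 0 ∨ c ^ d = 1) := by
  classical
  have : Fact p.Prime := ⟨hp⟩
  rcases eq_or_ne c 0 with rfl | hc
  · exact ⟨1, one_pos, Or.inl (pow_one 0)⟩
  have := FermatAgent.Hasse.charP_residueField (ℓ := p) hA
  let _ : Algebra (ZMod p) (IsLocalRing.ResidueField A) := ZMod.algebra _ p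
  have := FermatAgent.Hasse.isAlgebraic_residueField (ℓ := p) hA
  have : FiniteDimensional (ZMod p) (IntermediateField.adjoin (ZMod p) {c}) :=
    IntermediateField.adjoin.finiteDimensional (Algebra.IsAlgebraic.isAlgebraic c).isIntegral
  have : Finite (IntermediateField.adjoin (ZMod p) {c}) := Module.finite_of_finite (ZMod p)
  cases nonempty_fintype (IntermediateField.adjoin (ZMod p) {c})
  let c' : IntermediateField.adjoin (ZMod p) {c} :=
    ⟨c, IntermediateField.mem_adjoin_simple_self (ZMod p) c⟩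
  refine ⟨Fintype.card (IntermediateField.adjoin (ZMod p) {c}) - 1, ?_, Or.inr ?_⟩
  · have := Fintype.one_lt_card (α := IntermediateField.adjoin (ZMod p) {c})
    omega
  · exact congrArg Subtype.val (FiniteField.pow_card_sub_one_eq_one c' fun h =>
      hc (congrArg Subtype.val h))

lemma pow_eq_of_dvd {R : Type*} [MonoidWithZero R] {c : R} {d n : ℕ} (hn : 0 < n) (h : d ∣ n)
    (hc : c ^ d = 0 ∨ c ^ d = 1) : c ^ n = 0 ∨ c ^ n = 1 := by
  obtain ⟨m, rfl⟩ := h
  rw [pow_mul]
  rcases hc with hc | hc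
  · left; rw [hc, zero_pow]; rintro rfl; simp at hn
  · right; rw [hc, one_pow]

/-- `d` is admissible for a point if `G` is a unit on its primitive representatives. -/
def GoodExp (A : ValuationSubring Qb) (d : ℕ) (P : (qbarCurve E).Point) : Prop :=
  ∀ (c : Qb) (r : Fin 3 → Qb), r = c • pRep P → IsPrim A r → A.valuation (gForm d r) = 1

/-- An admissible exponent for finitely many points. -/
theorem exists_goodExp (hp : p.Prime) (hA : A.LiesOverPrime p) (hgood : ¬ (p : ℤ) ∣ E.Δ)
    {ι : Type*} [Finite ι] (P : ι → (qbarCurve E).Point) :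
    ∃ d, 0 < d ∧ ∀ i, GoodExp A d (P i) := by
  classical
  cases nonempty_fintype ι
  have hW := qbarCurve_intCoeffs E A
  have hΔ : A.valuation (qbarCurve E).Δ = 1 := by
    rw [qbarCurve_Δ]; exact val_intCast_eq_one hp hA hgood
  choose u r hu hr hn using fun i => exists_prim hW hΔ (P i)
  choose d hd0 hd using fun z : ι × Fin 3 => exists_pow_eq hp hA (redVec (r z.1) z.2)
  refine ⟨∏ z, d z, Finset.prod_pos fun z _ => hd0 z, fun i c r' hr' hprim => ?_⟩
  set D := ∏ z, d z
  have hD : 0 < D := Finset.prod_pos fun z _ => hd0 z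
  have hval : ∀ j, redVec (r i) j ^ D = 0 ∨ redVec (r i) j ^ D = 1 := fun j =>
    pow_eq_of_dvd hD (Finset.dvd_prod_of_mem d (Finset.mem_univ (i, j))) (hd (i, j))
  have hne : redVec (r i) 1 ≠ 0 ∨ redVec (r i) 2 ≠ 0 := by
    by_contra! h
    have := Projective.Y_ne_zero_of_Z_eq_zero (hn i) h.2
    exact this h.1
  have hG : A.valuation (gForm D (coeVec (r i))) = 1 := by
    set a : A := (r i 1 ^ D) ^ 2 - r i 1 ^ D * r i 2 ^ D + (r i 2 ^ D) ^ 2
    have ha : gForm D (coeVec (r i)) = (a : Qb) := by simp [gForm, a, coeVec]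
    rw [ha]
    refine le_antisymm (val_le_one_of_mem a.2) (not_lt.1 fun hlt => ?_)
    have h0 : IsLocalRing.residue A a = 0 := by
      rw [IsLocalRing.residue_eq_zero_iff, ValuationSubring.valuation_lt_one_iff]; exact hlt
    simp only [a, map_add, map_sub, map_mul, map_pow] at h0
    change (redVec (r i) 1 ^ D) ^ 2 - redVec (r i) 1 ^ D * redVec (r i) 2 ^ D +
      (redVec (r i) 2 ^ D) ^ 2 = 0 at h0
    rcases hval 1 with e1 | e1 <;> rcases hval 2 with e2 | e2 <;> rw [e1, e2] at h0
    · rcases hne with hne | hne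
      · exact hne (pow_eq_zero_iff (n := D) (by omega) |>.1 e1)
      · exact hne (pow_eq_zero_iff (n := D) (by omega) |>.1 e2)
    all_goals simp at h0
  set ρ : Qb := c / u i
  have hρ : r' = ρ • coeVec (r i) := by
    rw [hr', hr i, smul_smul, div_mul_cancel₀ _ (hu i)]
  have hρv : A.valuation ρ = 1 := by
    obtain ⟨h1, j, hj⟩ := isPrim_coeVec hW (hn i)
    obtain ⟨g1, k, hk⟩ := hprim
    refine le_antisymm ?_ ?_
    · have := val_le_one_of_mem (g1 j)
      rwa [hρ, Pi.smul_apply, smul_eq_mul, map_mul, hj, mul_one] at this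
    · rw [hρ, Pi.smul_apply, smul_eq_mul, map_mul] at hk
      exact hk ▸ mul_le_of_le_one_right' (val_le_one_of_mem (h1 k))
  rw [hρ, gForm_smul, map_mul, map_pow, hρv, one_pow, one_mul, hG]

section Model

variable (hp : p.Prime) (hA : A.LiesOverPrime p) (hgood : ¬ (p : ℤ) ∣ E.Δ)
  {M : Type} [AddCommGroup M] [Finite M] (ι : M →+ (qbarCurve E).Point) (d : ℕ)

/-- The generators `monomial / G`. -/
def genFun (e : Fin (d * 2) → Fin 3) (m : M) : Qb :=
  (∏ k, pRep (ι m) (e k)) / gForm d (pRep (ι m))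

variable (p) in
/-- The function algebra. -/
def modelAlg : Subalgebra (Rp p) (M → Qb) := Algebra.adjoin (Rp p) (Set.range (genFun ι d))

omit [Finite M] in
include hp hA hgood in
lemma gForm_ne_zero {m : M} (hd : GoodExp A d (ι m)) : gForm d (pRep (ι m)) ≠ 0 := by
  intro h
  have hW := qbarCurve_intCoeffs E A
  have hΔ : A.valuation (qbarCurve E).Δ = 1 := by
    rw [qbarCurve_Δ]; exact val_intCast_eq_one hp hA hgood
  obtain ⟨u, r, -, hr, hn⟩ := exists_prim hW hΔ (ι m)
  have := hd u (coeVec r) hr (isPrim_coeVec hW hn)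
  rw [hr, gForm_smul, h, mul_zero, map_zero] at this
  exact zero_ne_one this

omit [Finite M] in
include hp hA hgood in
/-- Normalised primitive representatives, `G = 1`. -/
theorem exists_normalised (hd0 : 0 < d) (hd : ∀ m, GoodExp A d (ι m)) :
    ∃ R : M → Fin 3 → A, (∀ m, (redCurve (qbarCurve_intCoeffs E A)).toProjective.Nonsingular
        (redVec (R m))) ∧
      (∀ m, ∃ c : Qb, coeVec (R m) = c • pRep (ι m)) ∧
      ∀ e m, genFun ι d e m = ∏ k, coeVec (R m) (e k) := by
  have hW := qbarCurve_intCoeffs E A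
  have hΔ : A.valuation (qbarCurve E).Δ = 1 := by
    rw [qbarCurve_Δ]; exact val_intCast_eq_one hp hA hgood
  choose u r hu hr hn using fun m => exists_prim hW hΔ (ι m)
  choose l hl using fun m => IsAlgClosed.exists_pow_nat_eq (gForm d (pRep (ι m)))
    (show 0 < d * 2 by omega)
  have hl0 : ∀ m, l m ≠ 0 := fun m h => gForm_ne_zero hp hA hgood ι d (hd m) (by
    rw [← hl m, h, zero_pow (by omega)])
  have hc : ∀ m, A.valuation (l m * u m)⁻¹ = 1 := fun m => by
    have h1 := hd m (u m) (coeVec (r m)) (hr m) (isPrim_coeVec hW (hn m))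
    rw [hr m, gForm_smul, ← hl m, ← mul_pow, map_pow, pow_eq_one_iff_left (by omega : d * 2 ≠ 0),
      mul_comm] at h1
    rw [map_inv₀, h1, inv_one]
  refine ⟨fun m => (⟨(l m * u m)⁻¹, mem_of_val_le_one (hc m).le⟩ : A) • r m, fun m => ?_,
    fun m => ⟨(l m)⁻¹, ?_⟩, fun e m => ?_⟩
  · have e : redVec ((⟨(l m * u m)⁻¹, mem_of_val_le_one (hc m).le⟩ : A) • r m) =
        IsLocalRing.residue A ⟨(l m * u m)⁻¹, mem_of_val_le_one (hc m).le⟩ • redVec (r m) := by
      funext i; simp [redVec]
    rw [e]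
    refine (Projective.nonsingular_smul _ (Ne.isUnit ?_)).2 (hn m)
    rw [Ne, IsLocalRing.residue_eq_zero_iff, ValuationSubring.valuation_lt_one_iff, hc m]
    exact lt_irrefl _
  · funext i
    show (l m * u m)⁻¹ * coeVec (r m) i = (l m)⁻¹ * pRep (ι m) i
    rw [hr m, Pi.smul_apply, smul_eq_mul, mul_inv, mul_assoc, inv_mul_cancel_left₀ (hu m)]
  · have e1 : ∀ k, coeVec ((⟨(l m * u m)⁻¹, mem_of_val_le_one (hc m).le⟩ : A) • r m) (e k) =
        (l m)⁻¹ * pRep (ι m) (e k) := fun k => by
      show (l m * u m)⁻¹ * coeVec (r m) (e k) = _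
      rw [hr m, Pi.smul_apply, smul_eq_mul, mul_inv, mul_assoc, inv_mul_cancel_left₀ (hu m)]
    simp only [e1, Finset.prod_mul_distrib, Finset.prod_const, Finset.card_univ, Fintype.card_fin,
      inv_pow, hl m, genFun, div_eq_inv_mul]

variable (act : GQ → M → M) (hact : ∀ σ m, ι (act σ m) = σ • ι m)

omit [Finite M] in
include hact in
lemma genFun_equivariant (e : Fin (d * 2) → Fin 3) : IsEquivariant act (genFun ι d e) := by
  intro σ m
  simp only [genFun, hact, pRep_smul, map_div₀, map_prod, Function.comp_apply]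
  congr 1
  exact gForm_map d (σ : Qb →+* Qb) _

omit [Finite M] in
include hact in
lemma modelAlg_equivariant : ∀ f ∈ modelAlg p ι d, IsEquivariant act f := by
  intro f hf
  induction hf using Algebra.adjoin_induction with
  | mem f hf => obtain ⟨e, rfl⟩ := hf; exact genFun_equivariant ι d act hact e
  | algebraMap r =>
    intro σ m
    show algebraMap (Rp p) Qb r = σ (algebraMap (Rp p) Qb r)
    rw [IsScalarTower.algebraMap_apply (Rp p) ℚ Qb, σ.commutes]
  | add f g _ _ hf hg => intro σ m; simp [hf σ m, hg σ m]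
  | mul f g _ _ hf hg => intro σ m; simp [hf σ m, hg σ m]

omit [Finite M] in
include hp hA hgood in
lemma modelAlg_mem (hd0 : 0 < d) (hd : ∀ m, GoodExp A d (ι m)) :
    ∀ f ∈ modelAlg p ι d, ∀ m, f m ∈ A := by
  obtain ⟨R, -, -, hR⟩ := exists_normalised hp hA hgood ι d hd0 hd
  intro f hf
  induction hf using Algebra.adjoin_induction with
  | mem f hf =>
    obtain ⟨e, rfl⟩ := hf
    intro m
    rw [hR]
    exact prod_mem fun k _ => Subtype.coe_prop _
  | algebraMap r => exact fun m => ratLocalized_mem hp hA r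
  | add f g _ _ hf hg => exact fun m => add_mem (hf m) (hg m)
  | mul f g _ _ hf hg => exact fun m => mul_mem (hf m) (hg m)

include hp hA hgood hact in
lemma modelAlg_fg (hd0 : 0 < d) (hd : ∀ m, GoodExp A d (ι m)) :
    (modelAlg p ι d).toSubmodule.FG := by
  classical
  cases nonempty_fintype M
  refine fg_adjoin_of_finite (Set.finite_range _) fun f hf => ?_
  obtain ⟨e, rfl⟩ := hf
  have hint : ∀ m, IsIntegral (Rp p) (genFun ι d e m) := fun m =>
    isIntegral_of_forall_mem hp hA fun σ => by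
      rw [← genFun_equivariant ι d act hact e σ m]
      exact modelAlg_mem hp hA hgood ι d hd0 hd _ (Algebra.subset_adjoin ⟨e, rfl⟩) _
  choose P hPm hP using hint
  refine ⟨∏ m, P m, Polynomial.monic_prod_of_monic _ _ fun m _ => hPm m, funext fun m => ?_⟩
  show Polynomial.aeval (genFun ι d e) (∏ m, P m) m = 0
  rw [← Pi.evalAlgHom_apply (Rp p) (fun _ : M => Qb) m (Polynomial.aeval (genFun ι d e) (∏ m, P m)),
    ← Polynomial.aeval_algHom_apply, map_prod]
  exact Finset.prod_eq_zero (Finset.mem_univ m) (hP m)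

lemma pow_le_subalgebra {N : Type*} (S : Subalgebra A (N → Qb)) {U : Submodule A (N → Qb)}
    (h : U ≤ Subalgebra.toSubmodule S) (n : ℕ) : U ^ n ≤ Subalgebra.toSubmodule S := by
  induction n with
  | zero =>
    rw [pow_zero, Submodule.one_le]
    exact S.one_mem
  | succ n ih =>
    rw [pow_succ]
    exact Submodule.mul_le.2 fun a ha b hb => S.mul_mem (ih ha) (h hb)

lemma prod_mem_pow {N : Type*} {T : Submodule A (N → Qb)} {n : ℕ} (g : Fin n → N → Qb)
    (h : ∀ k, g k ∈ T) : ∏ k, g k ∈ T ^ n := by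
  induction n with
  | zero => rw [Fin.prod_univ_zero, pow_zero]; exact Submodule.one_le.1 le_rfl
  | succ n ih =>
    rw [Fin.prod_univ_succ, pow_succ']
    exact Submodule.mul_mem_mul (h 0) (ih _ fun k => h k.succ)

omit [Finite M] in
include hp hA hgood in
/-- Pulling the generators back along a map with locally primitive laws. -/
theorem precomp_mem (_hd0 : 0 < d) (hd : ∀ m, GoodExp A d (ι m)) {N : Type} [Finite N]
    {actN : GQ → N → N} (hsurj : ∀ σ, Function.Surjective (actN σ))
    (B : Subalgebra (Rp p) (N → Qb)) [Module.Finite (Rp p) B]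
    (heq : ∀ f ∈ B, IsEquivariant actN f) (hint : ∀ f ∈ B, ∀ z, f z ∈ A) (R : N → M)
    (hR : ∀ σ z, R (actN σ z) = act σ (R z)) (hact : ∀ σ m, ι (act σ m) = σ • ι m)
    (hlaw : ∀ z₀, ∃ (T : Submodule A (N → Qb)) (L : N → Fin 3 → Qb),
      T ^ (d * 2) ≤ Subalgebra.toSubmodule (Algebra.adjoin A (B : Set (N → Qb))) ∧
      (∀ i, (fun z => L z i) ∈ T) ∧ (∀ z, ∃ c : Qb, L z = c • pRep (ι (R z))) ∧ IsPrim A (L z₀))
    {f : M → Qb} (hf : f ∈ modelAlg p ι d) : precomp (p := p) R f ∈ B := by
  suffices h : modelAlg p ι d ≤ B.comap (precomp (p := p) R) from h hf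
  refine Algebra.adjoin_le ?_
  rintro _ ⟨e, rfl⟩
  show precomp (p := p) R (genFun ι d e) ∈ B
  have hgeq : IsEquivariant actN (precomp (p := p) R (genFun ι d e)) := fun σ z => by
    simp only [precomp_apply, hR]
    exact genFun_equivariant ι d act hact e σ _
  refine mem_of_mem_adjoin hp hA hsurj B heq hgeq ?_
  have hspan : Subalgebra.toSubmodule (Algebra.adjoin A (B : Set (N → Qb))) =
      Submodule.span A (B : Set (N → Qb)) := by
    rw [Algebra.adjoin_eq_span]
    congr 1
    exact congrArg SetLike.coe (Submonoid.closure_eq B.toSubsemiring.toSubmonoid)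
  rw [← hspan]
  set S := Algebra.adjoin A (B : Set (N → Qb))
  refine mem_of_local S (fun s hs z => ?_) _ fun z₀ => ?_
  · induction hs using Algebra.adjoin_induction with
    | mem s hs => exact hint s hs z
    | algebraMap a => exact a.2
    | add a b _ _ ha hb => exact add_mem ha hb
    | mul a b _ _ ha hb => exact mul_mem ha hb
  obtain ⟨T, L, hT, hLT, hL, hL0⟩ := hlaw z₀
  refine ⟨fun z => gForm d (L z), hT ?_, ?_, ?_⟩
  · have h1 : (fun z => L z 1) ^ (d * 2) ∈ T ^ (d * 2) := Submodule.pow_mem_pow _ (hLT 1) _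
    have h2 : (fun z => L z 2) ^ (d * 2) ∈ T ^ (d * 2) := Submodule.pow_mem_pow _ (hLT 2) _
    have h12 : (fun z => L z 1) ^ d * (fun z => L z 2) ^ d ∈ T ^ (d * 2) := by
      rw [mul_two, pow_add]
      exact Submodule.mul_mem_mul (Submodule.pow_mem_pow _ (hLT 1) _)
        (Submodule.pow_mem_pow _ (hLT 2) _)
    have := (T ^ (d * 2)).add_mem ((T ^ (d * 2)).sub_mem h1 h12) h2
    rwa [show (fun z => gForm d (L z)) = (fun z => L z 1) ^ (d * 2) -
      (fun z => L z 1) ^ d * (fun z => L z 2) ^ d + (fun z => L z 2) ^ (d * 2) from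
      funext fun z => by simp [gForm, pow_mul]]
  · obtain ⟨c, hc⟩ := hL z₀
    exact hd (R z₀) c _ hc hL0
  · refine hT ?_
    have e1 : (fun z => gForm d (L z)) * precomp (p := p) R (genFun ι d e) =
        ∏ k, fun z => L z (e k) := by
      funext z
      obtain ⟨c, hc⟩ := hL z
      rw [Finset.prod_apply]
      simp only [Pi.mul_apply, precomp_apply, genFun, hc, gForm_smul, Pi.smul_apply, smul_eq_mul,
        Finset.prod_mul_distrib, Finset.prod_const, Finset.card_univ, Fintype.card_fin]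
      field_simp [gForm_ne_zero hp hA hgood ι d (hd (R z))]
    rw [e1]
    exact prod_mem_pow _ fun k => hLT (e k)

end Model

end

end FermatAgent.LocalP.FlatModel
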