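import Fermat.Agent.LocalP.Conditions.E1Torsion

/-!
# Formal torsion for multiplicative reduction, and `E₀[pⁿ] ⊆ E₁`
-/

set_option autoImplicit false

open scoped WeierstrassCurve.Affine

namespace FermatAgent.LocalP

open WeierstrassCurve WeierstrassCurve.Affine Polynomial
open FermatAgent.Local

noncomputable section

/-- The division values at a node vanish from index three on. -/
lemma preNormEDS'_zero_zero_zero {R : Type*} [CommRing R] :
    ∀ n : ℕ, 3 ≤ n → preNormEDS' (0 : R) 0 0 n = 0 := by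
  intro n
  induction n using normEDSRec with
  | zero => intro h; omega
  | one => intro h; omega
  | two => intro h; omega
  | three => intro _; exact preNormEDS'_three _ _ _
  | four => intro _; exact preNormEDS'_four _ _ _
  | even m ih1 ih2 ih3 ih4 ih5 =>
    intro _
    rw [preNormEDS'_even, ih3 (by omega)]
    simp [ih4 (by omega)]
  | odd m ih1 ih2 ih3 ih4 =>
    intro _
    rw [preNormEDS'_odd, ih3 (by omega)]
    split_ifs <;> simp [ih4 (by omega)]

section General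

variable {K : Type*} [Field K] [DecidableEq K] [IsAlgClosed K] {A : ValuationSubring K}
  {W : WeierstrassCurve.Affine K} {p : ℕ}

/-- Tate normal form, odd `p`: formal torsion, and a `p`-torsion point outside `E₁`. -/
theorem hasFormalTorsion_of_tate (hT : IsTate A W) (hΔ : W.Δ ≠ 0) (hp : p.Prime) (hp2 : p ≠ 2)
    (hpK : (p : K) ≠ 0) (hpA : A.valuation (p : K) < 1) :
    HasFormalTorsion A W p ∧ ∃ P : W.Point, p • P = 0 ∧ ¬ InE1 A W P := by
  have hW := hT.intCoeffs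
  set R := IsLocalRing.residue A
  have hodd := hp.odd_of_ne_two hp2
  have h2 : (2 : IsLocalRing.ResidueField A) ≠ 0 := by
    intro h
    have hp0 : ((p : ℕ) : IsLocalRing.ResidueField A) = 0 := by
      rw [← map_natCast R, IsLocalRing.residue_eq_zero_iff,
        ValuationSubring.valuation_lt_one_iff]
      exact hpA
    obtain ⟨m, hm⟩ := hodd
    rw [hm, Nat.cast_add, Nat.cast_mul, Nat.cast_ofNat, h, zero_mul, zero_add, Nat.cast_one]
      at hp0
    exact one_ne_zero hp0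
  have hc : R ⟨W.a₆, hW.a₆⟩ = 0 := by
    rw [IsLocalRing.residue_eq_zero_iff, ValuationSubring.valuation_lt_one_iff]
    exact hT.c_lt
  have hcoef : (redCurve hW).a₁ = 1 ∧ (redCurve hW).a₂ = 0 ∧ (redCurve hW).a₃ = 0 ∧
      (redCurve hW).a₄ = 0 ∧ (redCurve hW).a₆ = 0 := by
    refine ⟨?_, ?_, ?_, ?_, hc⟩
    · show R ⟨W.a₁, hW.a₁⟩ = 1
      rw [show (⟨W.a₁, hW.a₁⟩ : A) = 1 from Subtype.ext hT.a₁, map_one]
    · show R ⟨W.a₂, hW.a₂⟩ = 0
      rw [show (⟨W.a₂, hW.a₂⟩ : A) = 0 from Subtype.ext hT.a₂, map_zero]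
    · show R ⟨W.a₃, hW.a₃⟩ = 0
      rw [show (⟨W.a₃, hW.a₃⟩ : A) = 0 from Subtype.ext hT.a₃, map_zero]
    · show R ⟨W.a₄, hW.a₄⟩ = 0
      rw [show (⟨W.a₄, hW.a₄⟩ : A) = 0 from Subtype.ext hT.a₄, map_zero]
  obtain ⟨e1, e2, e3, e4, e6⟩ := hcoef
  set h : IsLocalRing.ResidueField A := 2⁻¹ with hh
  have hh2 : 2 * h = 1 := mul_inv_cancel₀ h2
  obtain ⟨i, hi⟩ := exists_unit_coeff_ΨSq (x := -(h ^ 2)) (y := h ^ 3) hW hodd (by
      rw [Affine.nonsingular_iff, Affine.equation_iff, e1, e2, e3, e4, e6]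
      refine ⟨?_, Or.inl fun e => ?_⟩
      · linear_combination (h ^ 5) * hh2
      · refine pow_ne_zero 4 (inv_ne_zero h2 : h ≠ 0) ?_
        linear_combination -e - h ^ 3 * hh2)
    (by rw [Affine.negY, e1, e3]; linear_combination (h ^ 2) * hh2)
  refine ⟨hasFormalTorsion_of_unit_coeff hW hΔ hp hpK hpA hi, ?_⟩
  have hnode : A.valuation ((W.ΨSq p).coeff 0) < 1 := by
    rw [coeff_ΨSq_intModel hW, ← ValuationSubring.valuation_lt_one_iff,
      ← IsLocalRing.residue_eq_zero_iff, ← coeff_map, ← map_ΨSq,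
      coeff_zero_eq_eval_zero, ΨSq_ofNat, if_neg (Nat.not_even_iff_odd.mpr hodd), mul_one,
      eval_pow, pow_eq_zero_iff two_ne_zero]
    show (((intModel hW).map R).preΨ' p).eval 0 = 0
    rw [WeierstrassCurve.preΨ', ← coe_evalRingHom, map_preNormEDS']
    obtain ⟨-, -, z3', z4', z6'⟩ : _ ∧ _ ∧ ((intModel hW).map R).a₃ = 0 ∧
        ((intModel hW).map R).a₄ = 0 ∧ ((intModel hW).map R).a₆ = 0 := ⟨e1, e2, e3, e4, e6⟩
    generalize (intModel hW).map R = V at z3' z4' z6' ⊢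
    have z2 : V.Ψ₂Sq.eval 0 = 0 := by
      simp [WeierstrassCurve.Ψ₂Sq, WeierstrassCurve.b₆, z3', z6']
    have z3 : V.Ψ₃.eval 0 = 0 := by
      simp [WeierstrassCurve.Ψ₃, WeierstrassCurve.b₈, z3', z4', z6']
    have z4 : V.preΨ₄.eval 0 = 0 := by
      simp [WeierstrassCurve.preΨ₄, WeierstrassCurve.b₆, WeierstrassCurve.b₈, z3', z4', z6']
    rw [map_pow, coe_evalRingHom, z2, z3, z4, zero_pow two_ne_zero]
    exact preNormEDS'_zero_zero_zero p (by have := hp.two_le; omega)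
  obtain ⟨j, rfl⟩ : ∃ j, i = j + 1 := ⟨i - 1, by
    rcases i with _ | i
    · exact absurd hi hnode.ne
    · rfl⟩
  obtain ⟨x, hx, hxA⟩ := exists_root_mem (A := A) (f := W.ΨSq p) (fun k => by
    rw [coeff_ΨSq_intModel hW]
    exact val_le_one_of_mem (Subtype.coe_prop _)) hi
  obtain ⟨y, hy⟩ := exists_point_over W hΔ x
  exact ⟨.some x y hy, (nsmul_eq_zero_iff hy p).2 hx, not_not.2 hxA⟩

end General

local notation "Qb" => AlgebraicClosure ℚ

variable {A : ValuationSubring Qb} {W : WeierstrassCurve.Affine Qb}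

/-- Multiplicative reduction, odd `p`. -/
theorem hasFormalTorsion_of_mult (hW : IntCoeffs A W) (hΔ : A.valuation W.Δ < 1) (hΔ0 : W.Δ ≠ 0)
    (hc₄ : A.valuation W.c₄ = 1) {p : ℕ} (hp : p.Prime) (hp2 : p ≠ 2)
    (hpA : A.valuation (p : Qb) < 1) :
    HasFormalTorsion A W p ∧ ∃ P : W.Point, p • P = 0 ∧ ¬ InE1 A W P := by
  obtain ⟨C, hT, -, hu, hr, -, -, -⟩ := exists_tate_form hW hΔ hΔ0 hc₄
  have hΔC : (C • W).toAffine.Δ ≠ 0 := by
    show (C • W).Δ ≠ 0
    rw [WeierstrassCurve.variableChange_Δ]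
    exact mul_ne_zero (pow_ne_zero _ (C.u⁻¹).ne_zero) hΔ0
  obtain ⟨hF, P, hP, hPn⟩ :=
    hasFormalTorsion_of_tate hT hΔC hp hp2 (Nat.cast_ne_zero.mpr hp.ne_zero) hpA
  have hv := fun Q => inE1_vcHom_iff (W := W) hu hr Q
  refine ⟨⟨fun T hT' => ?_, ?_⟩, vcHom W C P, by rw [← map_nsmul, hP, map_zero], by rwa [hv]⟩
  · obtain ⟨T₀, rfl⟩ := (vcHom_bijective W C).2 T
    obtain ⟨Q, hQ, hQT⟩ := hF.divisible T₀ ((hv T₀).1 hT')
    exact ⟨vcHom W C Q, (hv Q).2 hQ, by rw [← map_nsmul, hQT]⟩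
  · obtain ⟨Q, hQ0, hQp, hQE⟩ := hF.nontrivial
    exact ⟨vcHom W C Q, fun h => hQ0 ((vcHom_bijective W C).1 (h.trans (map_zero _).symm)),
      by rw [← map_nsmul, hQp, map_zero], (hv Q).2 hQE⟩

/-- Multiplicative reduction: a point of `E₀` killed by a power of `p` lies in `E₁`. -/
theorem inE1_of_inE0_of_pow_nsmul_eq_zero (hW : IntCoeffs A W) (hΔ : A.valuation W.Δ < 1)
    (hΔ0 : W.Δ ≠ 0) (hc₄ : A.valuation W.c₄ = 1) {p : ℕ} (hp : p.Prime) (hp2 : p ≠ 2)
    (hpA : A.valuation (p : Qb) < 1) {n : ℕ} {P : W.Point} (hP : p ^ n • P = 0)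
    (hE : InE0 A W P) : InE1 A W P := by
  induction n generalizing P with
  | zero =>
    rw [pow_zero, one_nsmul] at hP
    rw [hP]; trivial
  | succ n ih =>
    have h1 : InE1 A W (p • P) := ih (by rw [← mul_nsmul', ← pow_succ, hP])
      ((e0Subgroup A W hW).nsmul_mem hE p)
    obtain ⟨Q, hQ, hQP⟩ := (hasFormalTorsion_of_mult hW hΔ hΔ0 hc₄ hp hp2 hpA).1.divisible _ h1
    have h2 : InE1 A W (P - Q) :=
      inE1_of_inE0_of_nsmul_eq_zero hW hΔ hΔ0 hc₄ hp (by have := hp.two_le; omega) hpA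
        (by rw [nsmul_sub, hQP, sub_self]) ((e0Subgroup A W hW).sub_mem hE hQ.inE0)
    have := (e1Subgroup A W hW).add_mem h2 hQ
    rwa [sub_add_cancel] at this

end

end FermatAgent.LocalP
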