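import Fermat.Agent.Local.Multiplicative

/-!
# Decomposition acts on the component group of a multiplicative curve by a sign

The normalisation to `y² + xy = x³ + c` is unique up to `u ↦ -u`, so for `σ` in the decomposition
group all `σ P - P`, or all `σ P + P`, lie in `E₀` (residue characteristic not `2`).
-/

set_option autoImplicit false

namespace FermatAgent.LocalP

open WeierstrassCurve WeierstrassCurve.Affine
open FermatAgent.Local

noncomputable section

local notation "Qb" => AlgebraicClosure ℚ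

variable {A : ValuationSubring Qb} {W : WeierstrassCurve.Affine Qb}

/-- The equations satisfied by a normalising change of variables. -/
lemma tate_vc_equations {C : VariableChange Qb} (hT : IsTate A (C • W).toAffine)
    (hu : A.valuation (C.u : Qb) = 1) :
    W.b₂ + 12 * C.r = (C.u : Qb) ^ 2 ∧ W.b₄ + C.r * W.b₂ + 6 * C.r ^ 2 = 0 ∧
      A.valuation (W.b₆ + 2 * C.r * W.b₄ + C.r ^ 2 * W.b₂ + 4 * C.r ^ 3) < 1 ∧
      W.a₁ + 2 * C.s = (C.u : Qb) ∧ W.a₃ + C.r * W.a₁ + 2 * C.t = 0 := by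
  have hne : (C.u : Qb) ≠ 0 := C.u.ne_zero
  have h1 : (C • W).a₁ = 1 := hT.a₁
  have h2 : (C • W).a₂ = 0 := hT.a₂
  have h3 : (C • W).a₃ = 0 := hT.a₃
  have h4 : (C • W).a₄ = 0 := hT.a₄
  have e2 : (C • W).b₂ = 1 := by simp [WeierstrassCurve.b₂, h1, h2]
  have e4 : (C • W).b₄ = 0 := by simp [WeierstrassCurve.b₄, h3, h4]
  have e6 : (C • W).b₆ = 4 * (C • W).a₆ := by simp [WeierstrassCurve.b₆, h3]
  rw [variableChange_b₂, Units.val_inv_eq_inv_val] at e2
  rw [variableChange_b₄, Units.val_inv_eq_inv_val] at e4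
  rw [variableChange_b₆, Units.val_inv_eq_inv_val] at e6
  rw [variableChange_a₁, Units.val_inv_eq_inv_val] at h1
  rw [variableChange_a₃, Units.val_inv_eq_inv_val] at h3
  refine ⟨?_, ?_, ?_, ?_, ?_⟩
  · field_simp at e2; linear_combination e2
  · simpa [hne] using e4
  · have hc : A.valuation (C • W).a₆ < 1 := hT.c_lt
    have := congrArg A.valuation e6
    rw [map_mul, map_pow, map_inv₀, hu, inv_one, one_pow, one_mul, map_mul] at this
    rw [this]
    exact val_mul_lt_one_of_le_of_lt (val_le_one_of_mem (natCast_mem A 4)) hc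
  · field_simp at h1; linear_combination h1
  · simpa [hne] using h3

/-- Multiplicative reduction: up to a sign, the decomposition group moves points inside `E₀`. -/
theorem mult_conj_sign (hW : IntCoeffs A W) (hΔ : A.valuation W.Δ < 1) (hΔ0 : W.Δ ≠ 0)
    (hc₄ : A.valuation W.c₄ = 1) (h2 : A.valuation (2 : Qb) = 1) {σ : Qb ≃ₐ[ℚ] Qb}
    (hσ : σ ∈ A.decompositionSubgroup ℚ) (hfix : W.map (σ : Qb →+* Qb) = W) :
    (∀ P : W.Point, InE0 A W (conjPoint W (σ : Qb →+* Qb) hfix P - P)) ∨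
      (∀ P : W.Point, InE0 A W (conjPoint W (σ : Qb →+* Qb) hfix P + P)) := by
  obtain ⟨C, hT, -, hu, hr, hs, ht, -⟩ := exists_tate_form hW hΔ hΔ0 hc₄
  obtain ⟨F1, F2, F3, F4, F5⟩ := tate_vc_equations hT hu
  obtain ⟨c1, c2, c3, c4, c6⟩ : σ W.a₁ = W.a₁ ∧ σ W.a₂ = W.a₂ ∧ σ W.a₃ = W.a₃ ∧ σ W.a₄ = W.a₄ ∧
      σ W.a₆ = W.a₆ := ⟨congrArg WeierstrassCurve.a₁ hfix, congrArg WeierstrassCurve.a₂ hfix,
        congrArg WeierstrassCurve.a₃ hfix, congrArg WeierstrassCurve.a₄ hfix,
        congrArg WeierstrassCurve.a₆ hfix⟩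
  have d2 : σ W.b₂ = W.b₂ := by simp [WeierstrassCurve.b₂, c1, c2, map_ofNat]
  have d4 : σ W.b₄ = W.b₄ := by simp [WeierstrassCurve.b₄, c1, c3, c4, map_ofNat]
  have d6 : σ W.b₆ = W.b₆ := by simp [WeierstrassCurve.b₆, c3, c6, map_ofNat]
  have h20 : (2 : Qb) ≠ 0 := two_ne_zero
  -- `r` is fixed
  have G1 : W.b₂ + 12 * σ C.r = σ (C.u : Qb) ^ 2 := by
    have := congrArg σ F1; simpa [d2, map_ofNat] using this
  have G2 : W.b₄ + σ C.r * W.b₂ + 6 * σ C.r ^ 2 = 0 := by
    have := congrArg σ F2; simpa [d2, d4, map_ofNat] using this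
  have G3 : A.valuation (W.b₆ + 2 * σ C.r * W.b₄ + σ C.r ^ 2 * W.b₂ + 4 * σ C.r ^ 3) < 1 := by
    have : Algebra.IsAlgebraic ℚ Qb := AlgebraicClosure.isAlgebraic ℚ
    rw [← decomposition_val_eq hσ] at F3
    simpa [d2, d4, d6, map_ofNat] using F3
  have hrA : σ C.r ∈ A := (decomposition_mem_iff hσ _).2 hr
  set d : Qb := σ C.r - C.r with hd
  have hd0 : d = 0 := by
    by_contra hne
    have e1 : (C.u : Qb) ^ 2 + 6 * d = 0 := by
      refine (mul_eq_zero.1 (?_ : d * ((C.u : Qb) ^ 2 + 6 * d) = 0)).resolve_left hne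
      rw [hd]; linear_combination G2 - F2 - (σ C.r - C.r) * F1
    have h2d : A.valuation (-2 * d ^ 3) < 1 := by
      rw [show -2 * d ^ 3 = (W.b₆ + 2 * σ C.r * W.b₄ + σ C.r ^ 2 * W.b₂ + 4 * σ C.r ^ 3) -
          (W.b₆ + 2 * C.r * W.b₄ + C.r ^ 2 * W.b₂ + 4 * C.r ^ 3) by
        rw [hd]
        linear_combination (-(σ C.r - C.r) ^ 2) * e1 - (σ C.r - C.r) ^ 2 * F1
          - 2 * (σ C.r - C.r) * F2 + 6 * (σ C.r - C.r) ^ 2 * hd]
      exact A.valuation.map_sub_lt G3 F3
    have hu2 : A.valuation (6 * d) = 1 := by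
      rw [show 6 * d = -((C.u : Qb) ^ 2) by linear_combination e1, Valuation.map_neg, map_pow, hu,
        one_pow]
    rw [map_mul, Valuation.map_neg, h2, one_mul, map_pow] at h2d
    have hdlt : A.valuation d < 1 := (pow_lt_one_iff (by norm_num)).1 h2d
    rw [map_mul] at hu2
    exact (val_mul_lt_one_of_le_of_lt (val_le_one_of_mem (natCast_mem A 6)) hdlt).ne hu2
  have hσr : σ C.r = C.r := sub_eq_zero.1 hd0
  have hσt : σ C.t = C.t := by
    have := congrArg σ F5
    simp only [map_add, map_mul, map_ofNat, map_zero, c1, c3, hσr] at this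
    linear_combination (1 / 2 : Qb) * this - (1 / 2 : Qb) * F5
  have hu2 : σ (C.u : Qb) ^ 2 = (C.u : Qb) ^ 2 := by rw [← G1, hσr, F1]
  have hs2 : W.a₁ + 2 * σ C.s = σ (C.u : Qb) := by
    have := congrArg σ F4; simpa [c1, map_ofNat] using this
  -- `σ` fixes the Tate normal form
  have hc : σ (C • W).a₆ = (C • W).a₆ := by
    have h6 : σ (C.u : Qb) ^ 6 = (C.u : Qb) ^ 6 := by
      rw [show 6 = 2 * 3 from rfl, pow_mul, pow_mul, hu2]
    rw [variableChange_a₆, Units.val_inv_eq_inv_val]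
    simp only [map_mul, map_pow, map_inv₀, map_add, map_sub, c1, c2, c3, c4, c6, hσr, hσt, inv_pow,
      h6]
  have hWC : (C • W).toAffine.map (σ : Qb →+* Qb) = (C • W).toAffine := by
    ext
    · exact (congrArg σ hT.a₁).trans ((map_one σ).trans hT.a₁.symm)
    · exact (congrArg σ hT.a₂).trans ((map_zero σ).trans hT.a₂.symm)
    · exact (congrArg σ hT.a₃).trans ((map_zero σ).trans hT.a₃.symm)
    · exact (congrArg σ hT.a₄).trans ((map_zero σ).trans hT.a₄.symm)
    · exact hc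
  set g := conjPoint (C • W).toAffine (σ : Qb →+* Qb) hWC
  have key : ∀ Q, InE0 A (C • W).toAffine (g Q - Q) := hT.conj_sub_inE0 hWC hσ
  rcases sq_eq_sq_iff_eq_or_eq_neg.1 hu2 with he | he
  · refine Or.inl fun P => ?_
    obtain ⟨Q, rfl⟩ := (vcHom_bijective W C).2 P
    have hσs : σ C.s = C.s := by linear_combination (1 / 2 : Qb) * (hs2.trans he) - (1 / 2 : Qb) * F4
    have e : conjPoint W (σ : Qb →+* Qb) hfix (vcHom W C Q) = vcHom W C (g Q) := by
      rcases Q with _ | ⟨x, y, h⟩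
      · rfl
      · simp only [g, conjPoint_some, vcHom_some, RingHom.coe_coe, vcX, vcY, map_add, map_mul,
          map_pow, he, hσr, hσs, hσt]
    rw [e, ← map_sub, inE0_vcHom_iff hW hT.intCoeffs hu hr hs ht]
    exact key Q
  · refine Or.inr fun P => ?_
    obtain ⟨Q, rfl⟩ := (vcHom_bijective W C).2 P
    have hσs : σ C.s = C.s - (C.u : Qb) := by
      linear_combination (1 / 2 : Qb) * (hs2.trans he) - (1 / 2 : Qb) * F4
    have e : conjPoint W (σ : Qb →+* Qb) hfix (vcHom W C Q) = vcHom W C (-(g Q)) := by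
      rcases Q with _ | ⟨x, y, h⟩
      · rfl
      · simp only [g, conjPoint_some, Point.neg_some, vcHom_some, RingHom.coe_coe, Point.some.injEq,
          vcX, vcY, map_add, map_mul, map_pow, he, hσr, hσs, hσt, hT.negY']
        constructor <;> ring
    rw [e, ← map_add, inE0_vcHom_iff hW hT.intCoeffs hu hr hs ht,
      show -(g Q) + Q = -(g Q - Q) by abel]
    exact (key Q).neg' hT.intCoeffs

end

end FermatAgent.LocalP
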