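import Fermat.Agent.LocalP.Conditions.Ordinary
import Fermat.Agent.LocalP.Conditions.TateSign

/-!
# Strict ordinarity of the Tate module at a multiplicative odd prime

The decomposition group acts on the quotient by a sign, so on the line by the sign times the
determinant.
-/

set_option autoImplicit false

open scoped WeierstrassCurve.Affine

namespace FermatAgent.LocalP

open WeierstrassCurve WeierstrassCurve.Affine
open FermatAgent.Local FermatAgent.GalRep.Tate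

noncomputable section

local notation "Qb" => AlgebraicClosure ℚ
local notation "GQ" => AlgebraicClosure ℚ ≃ₐ[ℚ] AlgebraicClosure ℚ

variable {E : WeierstrassCurve ℤ} {p : ℕ} [Fact p.Prime]

/-- In a basis adapted to a stable line with scalar quotient action, the determinant is the
product of the two scalars. -/
lemma exists_scalar_det {R V : Type*} [CommRing R] [AddCommGroup V] [Module R V]
    (b : Module.Basis (Fin 2) R V) (f : V →ₗ[R] V) (hf : f (b 0) ∈ Submodule.span R {b 0}) (z : R)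
    (hz : ∀ v, f v - z • v ∈ Submodule.span R {b 0}) :
    ∃ x : R, (∀ w ∈ Submodule.span R {b 0}, f w = x • w) ∧ LinearMap.det f = x * z := by
  obtain ⟨x, hx⟩ := Submodule.mem_span_singleton.1 hf
  obtain ⟨y, hy⟩ := Submodule.mem_span_singleton.1 (hz (b 1))
  refine ⟨x, fun w hw => ?_, ?_⟩
  · obtain ⟨a, rfl⟩ := Submodule.mem_span_singleton.1 hw
    rw [map_smul, ← hx, smul_comm]
  · have h1 : f (b 1) = y • b 0 + z • b 1 := by rw [hy, sub_add_cancel]
    rw [← LinearMap.det_toMatrix b, Matrix.det_fin_two]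
    simp [LinearMap.toMatrix_apply, ← hx, h1, map_add, map_smul]

/-- Multiplicative odd `p`: on the quotient by the line, decomposition acts by a sign. -/
theorem exists_sign (hΔ : (E.map (Int.castRingHom ℚ)).Δ ≠ 0) (hp2 : p ≠ 2)
    (hbad : (p : ℤ) ∣ E.Δ) (hc₄ : ¬ (p : ℤ) ∣ E.c₄) {A : ValuationSubring Qb}
    (hA : A.LiesOverPrime p) {σ : GQ} (hσ : σ ∈ A.decompositionSubgroup ℚ) :
    (∀ (n : ℕ) (P : (qbarCurve E).Point), p ^ n • P = 0 → InE1 A (qbarCurve E) (σ • P - P)) ∨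
      (∀ (n : ℕ) (P : (qbarCurve E).Point), p ^ n • P = 0 → InE1 A (qbarCurve E) (σ • P + P)) := by
  have hp := (Fact.out : p.Prime)
  have hpA : A.valuation (p : Qb) < 1 := by
    have := (val_intCast_lt_one_iff hp hA (p : ℤ)).2 (dvd_refl _)
    simpa using this
  have hv : A.valuation (qbarCurve E).Δ < 1 := by
    rw [qbarCurve_Δ]; exact (val_intCast_lt_one_iff hp hA _).2 hbad
  have hc : A.valuation (qbarCurve E).c₄ = 1 := by
    rw [qbarCurve_c₄]; exact val_intCast_eq_one hp hA hc₄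
  have hW := qbarCurve_intCoeffs E A
  have h2 : A.valuation (2 : Qb) = 1 := by
    have := val_intCast_eq_one hp hA (m := (2 : ℤ)) (fun h => hp2
      ((Nat.prime_dvd_prime_iff_eq hp Nat.prime_two).1 (Int.natCast_dvd_natCast.1 h)))
    simpa using this
  rcases mult_conj_sign hW hv (qbarCurve_Δ_ne_zero hΔ) hc h2 hσ (qbarCurve_conj E _) with h | h
  · refine Or.inl fun n P hP => ?_
    rw [galois_smul_eq_conjPoint]
    exact inE1_of_inE0_of_pow_nsmul_eq_zero hW hv (qbarCurve_Δ_ne_zero hΔ) hc hp hp2 hpA (n := n)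
      (by rw [nsmul_sub, ← map_nsmul, hP, map_zero, sub_zero]) (h P)
  · refine Or.inr fun n P hP => ?_
    rw [galois_smul_eq_conjPoint]
    exact inE1_of_inE0_of_pow_nsmul_eq_zero hW hv (qbarCurve_Δ_ne_zero hΔ) hc hp hp2 hpA (n := n)
      (by rw [nsmul_add, ← map_nsmul, hP, map_zero, add_zero]) (h P)

/-- The action on the Tate module, on vectors. -/
def tateLin (hΔ : (E.map (Int.castRingHom ℚ)).Δ ≠ 0) (σ : GQ) :
    Module.End ℤ_[p] (Fin 2 → ℤ_[p]) :=
  (tateRep p hΔ).ρ σ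

/-- Multiplicative reduction at an odd `p`, cyclotomic determinant: strictly ordinary at `p`. -/
theorem tateRep_isStrictOrdinaryAt (hΔ : (E.map (Int.castRingHom ℚ)).Δ ≠ 0) (hp2 : p ≠ 2)
    (hbad : (p : ℤ) ∣ E.Δ) (hc₄ : ¬ (p : ℤ) ∣ E.c₄)
    (hdet : (tateRep p hΔ).DetIsCyclotomic p) : (tateRep p hΔ).IsStrictOrdinaryAt p := by
  refine ⟨hdet.1, fun A hA => ?_⟩
  have hss : (p : ℤ) ∣ E.Δ → ¬ (p : ℤ) ∣ E.c₄ := fun _ => hc₄
  obtain ⟨b, hb⟩ := exists_basis_line hΔ A (hasFormalTorsion_of_semistable hΔ hp2 hss hA)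
    (hasEtaleTorsion_of_mult hΔ hp2 hbad hc₄ hA)
  have hstab : ∀ σ ∈ A.decompositionSubgroup ℚ, ∀ v ∈ Submodule.span ℤ_[p] {b 0},
      (tateRep p hΔ).ρ σ v ∈ Submodule.span ℤ_[p] {b 0} := fun σ hσ v hv =>
    (hb _).2 fun n => (smul_ptOf hΔ n σ v ▸ inE1_smul hσ ((hb v).1 hv n) :)
  refine ⟨Submodule.span ℤ_[p] {b 0}, ⟨b, rfl⟩, hstab, fun σ hσ v => ?_, fun σ hσ => ?_⟩
  · refine (hb _).2 fun n => ?_
    have e : ptOf hΔ n ((tateRep p hΔ).ρ σ v - v) = σ • ptOf hΔ n v - ptOf hΔ n v :=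
      (ptOf_sub hΔ n _ v).trans (congrArg (· - ptOf hΔ n v) (smul_ptOf hΔ n σ v).symm)
    exact e.symm ▸ smul_sub_inE1_of_semistable hΔ hp2 hss hA hσ (pow_nsmul_ptOf hΔ n v)
  obtain ⟨z, hz2, hz⟩ : ∃ z : ℤ_[p], z * z = 1 ∧ ∀ v : Fin 2 → ℤ_[p],
      tateLin hΔ σ v - z • v ∈ Submodule.span ℤ_[p] {b 0} := by
    rcases exists_sign hΔ hp2 hbad hc₄ hA hσ with h | h
    · refine ⟨1, one_mul 1, fun v => (hb _).2 fun n => ?_⟩
      have e : ptOf hΔ n (tateLin hΔ σ v - (1 : ℤ_[p]) • v) =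
          σ • ptOf hΔ n v - ptOf hΔ n v := by
        rw [one_smul]
        exact (ptOf_sub hΔ n _ v).trans (congrArg (· - ptOf hΔ n v) (smul_ptOf hΔ n σ v).symm)
      exact e.symm ▸ h n _ (pow_nsmul_ptOf hΔ n v)
    · refine ⟨-1, by norm_num, fun v => (hb _).2 fun n => ?_⟩
      have e : ptOf hΔ n (tateLin hΔ σ v - (-1 : ℤ_[p]) • v) =
          σ • ptOf hΔ n v + ptOf hΔ n v := by
        rw [neg_one_smul, sub_neg_eq_add]
        exact (ptOf_add hΔ n _ v).trans (congrArg (· + ptOf hΔ n v) (smul_ptOf hΔ n σ v).symm)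
      exact e.symm ▸ h n _ (pow_nsmul_ptOf hΔ n v)
  obtain ⟨x, hx, hd⟩ := exists_scalar_det b (tateLin hΔ σ)
    (hstab σ hσ _ (Submodule.mem_span_singleton_self _)) z hz
  refine ⟨x, z, hx, hz, fun n a ha => ?_⟩
  have h : z * (LinearMap.det (tateLin hΔ σ) - (a : ℤ_[p])) ∈ Ideal.span {((p ^ n : ℕ) : ℤ_[p])} :=
    Ideal.mul_mem_left _ z (hdet.2 n σ a ha)
  rw [hd] at h
  convert h using 1
  linear_combination (-x) * hz2

end

end FermatAgent.LocalP
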